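import Fermat.Agent.RatDefinable.Integers
import Fermat.Agent.Root.SummaryHilbertTenth
import Mathlib.ModelTheory.Algebra.Ring.Definability

/-!
# The definable sets of the field `ℚ`

The trace criterion is one polynomial equation, so the integers are a universal-existential
definable subset of `ℚ` and, by the theorem of Davis, Putnam, Robinson and Matiyasevich, every
recursively enumerable set of natural numbers is definable without parameters.
-/

set_option autoImplicit false

noncomputable section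

open Finset MvPolynomial

namespace Fermat.Agent.RatDefinable

/-- A non-negative rational is a sum of four squares. -/
theorem exists_four_squares_rat {q : ℚ} (hq : 0 ≤ q) : ∃ y : Fin 4 → ℚ, ∑ i, y i ^ 2 = q := by
  obtain ⟨n, hn⟩ : ∃ n : ℕ, (n : ℤ) = q.num * q.den :=
    ⟨(q.num * q.den).toNat,
      Int.toNat_of_nonneg (mul_nonneg (Rat.num_nonneg.2 hq) (Int.natCast_nonneg _))⟩
  obtain ⟨a, b, c, d, h⟩ := Nat.sum_four_squares n
  refine ⟨fun i => ((![a, b, c, d] i : ℕ) : ℚ) / q.den, ?_⟩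
  simp only [Fin.sum_univ_four, div_pow, ← add_div, Matrix.cons_val_zero, Matrix.cons_val_one,
    Matrix.cons_val]
  rw [div_eq_iff (pow_ne_zero _ (Nat.cast_ne_zero.2 q.den_ne_zero))]
  have hn' : (n : ℚ) = (q.num : ℚ) * q.den := by exact_mod_cast hn
  have h' : (a : ℚ) ^ 2 + b ^ 2 + c ^ 2 + d ^ 2 = n := by exact_mod_cast h
  rw [h', hn', ← Rat.mul_den_eq_num q]
  ring

/-- The parameters and the unknowns of the definition. -/
abbrev Var : Type := (Fin 1 ⊕ Fin 2) ⊕ (Fin 4 × Fin 4 ⊕ Fin 2 × Fin 4)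

/-- The polynomial of the definition. -/
def integerPoly : MvPolynomial Var ℤ :=
  let t : MvPolynomial Var ℤ := X (Sum.inl (Sum.inl 0))
  let a : MvPolynomial Var ℤ := X (Sum.inl (Sum.inr 0))
  let b : MvPolynomial Var ℤ := X (Sum.inl (Sum.inr 1))
  let x : Fin 4 → Fin 4 → MvPolynomial Var ℤ := fun i j => X (Sum.inr (Sum.inl (i, j)))
  let sq : Fin 2 → MvPolynomial Var ℤ := fun k => ∑ i, X (Sum.inr (Sum.inr (k, i))) ^ 2
  a * b * ((a + sq 0) ^ 2 + (b + sq 1) ^ 2) *
    (∑ i, (x i 0 ^ 2 - a * x i 1 ^ 2 - b * x i 2 ^ 2 + a * b * x i 3 ^ 2 - 1) ^ 2 +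
      (∏ u ∈ range 6, (t - (2 * x 0 0 + 2 * x 1 0 + 2 * x 2 0 + 2 * x 3 0 + (u : ℕ)))) ^ 2)

theorem integerPoly_solvable_iff (v : Fin 1 → ℚ) (w : Fin 2 → ℚ) :
    (∃ z, aeval (Sum.elim (Sum.elim v w) z) integerPoly = 0) ↔
      (w 0 ≠ 0 → w 1 ≠ 0 → (0 < w 0 ∨ 0 < w 1) → IsTraceSum (w 0) (w 1) (v 0)) := by
  simp only [integerPoly, map_mul, map_add, map_sub, map_pow, map_sum, map_prod, map_one,
    map_ofNat, map_natCast, aeval_X, Sum.elim_inl, Sum.elim_inr]
  constructor
  · rintro ⟨z, hz⟩ ha hb hpos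
    rcases mul_eq_zero.1 hz with h | h
    · have h' := (mul_eq_zero.1 h).resolve_left (mul_ne_zero ha hb)
      have h1 := (add_eq_zero_iff_of_nonneg (sq_nonneg _) (sq_nonneg _)).1 h'
      rw [sq_eq_zero_iff, sq_eq_zero_iff] at h1
      have hs : ∀ k : Fin 2, 0 ≤ ∑ i, z (Sum.inr (k, i)) ^ 2 := fun k =>
        sum_nonneg fun i _ => sq_nonneg _
      rcases hpos with hp | hp
      · linarith [h1.1, hs 0]
      · linarith [h1.2, hs 1]
    · obtain ⟨h1, h2⟩ :=
        (add_eq_zero_iff_of_nonneg (sum_nonneg fun i _ => sq_nonneg _) (sq_nonneg _)).1 h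
      rw [sq_eq_zero_iff, prod_eq_zero_iff] at h2
      obtain ⟨u, hu, hu'⟩ := h2
      refine ⟨u, hu, fun i => 2 * z (Sum.inl (i, 0)), fun i => ⟨fun j => z (Sum.inl (i, j)), rfl,
        ?_⟩, sub_eq_zero.1 hu'⟩
      have h3 := (sum_eq_zero_iff_of_nonneg fun k _ => sq_nonneg _).1 h1 i (mem_univ i)
      rw [sq_eq_zero_iff, sub_eq_zero] at h3
      exact h3
  · intro h
    by_cases hab : w 0 = 0 ∨ w 1 = 0
    · exact ⟨0, by rcases hab with e | e <;> simp [e]⟩
    push Not at hab
    by_cases hpos : 0 < w 0 ∨ 0 < w 1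
    · obtain ⟨u, hu, s, hs, hv⟩ := h hab.1 hab.2 hpos
      choose x hx hx1 using hs
      refine ⟨Sum.elim (fun ij => x ij.1 ij.2) 0, mul_eq_zero_of_right _ ?_⟩
      simp only [Sum.elim_inl]
      rw [prod_eq_zero hu (by rw [hv, hx, hx, hx, hx, sub_self]), sum_eq_zero fun i _ => by
        rw [hx1 i, sub_self, zero_pow two_ne_zero]]
      simp
    · push Not at hpos
      choose y hy using fun k : Fin 2 =>
        exists_four_squares_rat (q := -w k)
          (neg_nonneg.2 (by fin_cases k <;> simp [hpos.1, hpos.2]))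
      refine ⟨Sum.elim 0 fun ki => y ki.1 ki.2, mul_eq_zero_of_left (mul_eq_zero_of_right _ ?_) _⟩
      simp [hy]

/-- The integers by the polynomial. -/
theorem exists_intCast_iff_integerPoly (v : Fin 1 → ℚ) : (∃ n : ℤ, (n : ℚ) = v 0) ↔
    ∀ w : Fin 2 → ℚ, ∃ z, aeval (Sum.elim (Sum.elim v w) z) integerPoly = 0 := by
  rw [exists_intCast_iff]
  constructor
  · exact fun h w => (integerPoly_solvable_iff v w).2 (h (w 0) (w 1))
  · intro h a b
    simpa using (integerPoly_solvable_iff v ![a, b]).1 (h _)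

section ModelTheory

open FirstOrder

/-- The field `ℚ` as a structure for the language of rings. -/
@[instance_reducible]
def ratRing : Ring.CompatibleRing ℚ := Ring.compatibleRingOfRing ℚ

attribute [local instance] ratRing

/-- An integral polynomial is a term. -/
theorem exists_term {ι : Type*} (P : MvPolynomial ι ℤ) :
    ∃ τ : Language.ring.Term ι, ∀ v : ι → ℚ, τ.realize v = aeval v P := by
  induction P using MvPolynomial.induction_on with
  | C z =>
    induction z using Int.induction_on with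
    | zero => exact ⟨0, fun v => by simp⟩
    | succ k ih =>
      obtain ⟨τ, hτ⟩ := ih
      exact ⟨τ + 1, fun v => by simp [hτ]⟩
    | pred k ih =>
      obtain ⟨τ, hτ⟩ := ih
      exact ⟨τ + -1, fun v => by simp [hτ]; ring⟩
  | add f g hf hg =>
    obtain ⟨σ, hσ⟩ := hf
    obtain ⟨τ, hτ⟩ := hg
    exact ⟨σ + τ, fun v => by simp [hσ, hτ]⟩
  | mul_X f i hf =>
    obtain ⟨σ, hσ⟩ := hf
    exact ⟨σ * Language.var i, fun v => by simp [hσ]⟩

/-- The zero set of an integral polynomial is definable without parameters. -/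
theorem definable_zeroSet {ι : Type*} (P : MvPolynomial ι ℤ) :
    (∅ : Set ℚ).Definable Language.ring {v : ι → ℚ | aeval v P = 0} := by
  obtain ⟨τ, hτ⟩ := exists_term P
  refine Set.empty_definable_iff.2 ⟨τ.equal 0, Set.ext fun v => ?_⟩
  simp [Language.Formula.Realize, Language.Term.equal, hτ]

/-- The integers are definable. -/
theorem definable_int :
    (∅ : Set ℚ).Definable Language.ring {v : Fin 1 → ℚ | ∃ n : ℤ, (n : ℚ) = v 0} := by
  simp only [exists_intCast_iff_integerPoly]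
  exact (definable_zeroSet integerPoly).exists_of_finite.forall_of_finite

/-- The natural numbers are definable. -/
theorem definable_nat :
    (∅ : Set ℚ).Definable Language.ring {v : Fin 1 → ℚ | ∃ n : ℕ, (n : ℚ) = v 0} := by
  have h := definable_int.inter (definable_zeroSet (X (Sum.inl 0) - ∑ i : Fin 4, X (Sum.inr i) ^ 2 :
    MvPolynomial (Fin 1 ⊕ Fin 4) ℤ)).exists_of_finite
  convert h using 1
  ext v
  simp only [Set.mem_ofPred_eq, Set.mem_inter_iff, map_sub, map_sum, map_pow, aeval_X, Sum.elim_inl,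
    Sum.elim_inr]
  constructor
  · rintro ⟨n, hn⟩
    obtain ⟨y, hy⟩ := exists_four_squares_rat (q := v 0) (hn ▸ Nat.cast_nonneg n)
    exact ⟨⟨n, by rw [← hn]; simp⟩, y, by rw [hy, sub_self]⟩
  · rintro ⟨⟨n, hn⟩, y, hy⟩
    have h0 : (0 : ℚ) ≤ (n : ℚ) := by
      rw [hn, sub_eq_zero.1 hy]
      exact sum_nonneg fun i _ => sq_nonneg _
    exact ⟨n.toNat, by rw [← hn]; exact_mod_cast Int.toNat_of_nonneg (by exact_mod_cast h0)⟩

theorem aeval_natCast {κ : Type*} (g : κ → ℕ) (P : MvPolynomial κ ℤ) :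
    aeval (fun i => (g i : ℚ)) P = ((eval (fun i => (g i : ℤ)) P : ℤ) : ℚ) := by
  induction P using MvPolynomial.induction_on with
  | C z => simp
  | add f h hf hh => simp [hf, hh]
  | mul_X f i hf => simp [hf]

/-- The recursively enumerable sets are definable. -/
theorem definable_rePred {S : ℕ → Prop} (hS : REPred S) :
    (∅ : Set ℚ).Definable Language.ring {v : Fin 1 → ℚ | ∃ n : ℕ, (n : ℚ) = v 0 ∧ S n} := by
  obtain ⟨m, P, hP⟩ := FA.Hilbert10.rePred_iff_exists_equation.1 hS
  let e : Fin (m + 1) → Fin 1 ⊕ Fin m := Fin.cons (Sum.inl 0) Sum.inr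
  have h := ((definable_zeroSet (rename e P)).inter (Set.definable_iInter_of_finite
    fun i : Fin 1 ⊕ Fin m => definable_nat.preimage_comp fun _ => i)).exists_of_finite
  convert h using 1
  ext v
  simp only [Set.mem_ofPred_eq, Set.mem_inter_iff, Set.mem_iInter, Set.mem_preimage,
    Function.comp_apply, aeval_rename]
  constructor
  · rintro ⟨n, hn, hSn⟩
    obtain ⟨x, hx⟩ := (hP n).1 hSn
    refine ⟨fun i => (x i : ℚ), ?_, fun i => ?_⟩
    · rw [show (Sum.elim v fun i => (x i : ℚ)) ∘ e =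
        fun i => (((Fin.cons n x : Fin (m + 1) → ℕ) i : ℕ) : ℚ) by
          funext i; cases i using Fin.cases <;> simp [e, hn], aeval_natCast, hx, Int.cast_zero]
    · rcases i with i | i
      · exact ⟨n, by rw [Subsingleton.elim i 0]; exact hn⟩
      · exact ⟨x i, rfl⟩
  · rintro ⟨u, hu, hnat⟩
    obtain ⟨n, hn⟩ := hnat (Sum.inl 0)
    choose x hx using fun i => hnat (Sum.inr i)
    refine ⟨n, hn, (hP n).2 ⟨x, ?_⟩⟩
    rw [show Sum.elim v u ∘ e = fun i => (((Fin.cons n x : Fin (m + 1) → ℕ) i : ℕ) : ℚ) by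
      funext i; cases i using Fin.cases <;> simp [e, hn, hx], aeval_natCast] at hu
    exact_mod_cast hu

end ModelTheory

end Fermat.Agent.RatDefinable
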