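import Fermat.Agent.RatDefinable.Ramified

/-!
# The integers inside the rationals

For every prime `p` some quaternion algebra indefinite at infinity is ramified at `p`. So the
integers are the rationals which are, up to a shift below six, sums of four traces of elements of
norm one in every such algebra.
-/

set_option autoImplicit false

noncomputable section

open Finset

namespace Fermat.Agent.RatDefinable

open FA.QuadForms

variable {p : ℕ} [hp : Fact p.Prime]

/-- At every prime some indefinite quaternion algebra is a division algebra. -/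
theorem exists_ramified (p : ℕ) [Fact p.Prime] :
    ∃ b : ℤ, b ≠ 0 ∧ ¬ Iso3 (((p : ℤ) : ℚ_[p])) (b : ℚ_[p]) := by
  rcases eq_or_ne p 2 with rfl | h2
  · refine ⟨5, by norm_num, fun h => ?_⟩
    have h1 := sym_eq_one_of_iso (p := 2) (a := 2) (b := 5) (by norm_num) (by norm_num) h
    rw [sym_two, symTwo_two_left (by norm_num)] at h1
    revert h1
    decide
  obtain ⟨c, hc⟩ := FiniteField.exists_nonsquare (F := ZMod p)
    (by rwa [ZMod.ringChar_zmod_n])
  obtain ⟨u, rfl⟩ := ZMod.intCast_surjective c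
  have hu0 : ¬ (p : ℤ) ∣ u := fun h => hc (by
    rw [(ZMod.intCast_zmod_eq_zero_iff_dvd _ _).2 h]
    exact ⟨0, by simp⟩)
  refine ⟨u, fun h => hu0 (h ▸ dvd_zero _), fun h => ?_⟩
  have h1 := sym_eq_one_of_iso (Int.natCast_ne_zero.2 (Fact.out : p.Prime).ne_zero)
    (fun e : u = 0 => hu0 (e ▸ dvd_zero _)) h
  rw [sym_comm, sym_unit_self h2 hu0, ← jacobiSym.legendreSym.to_jacobiSym,
    legendreSym.eq_one_iff p (fun e => hu0 ((ZMod.intCast_zmod_eq_zero_iff_dvd _ _).1 e))] at h1
  exact hc h1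

omit hp in
/-- A rational integral at every prime is an integer. -/
theorem eq_intCast_of_norm_le_one {t : ℚ}
    (h : ∀ (p : ℕ) [Fact p.Prime], ‖(t : ℚ_[p])‖ ≤ 1) : ∃ n : ℤ, (n : ℚ) = t := by
  refine ⟨t.num, ?_⟩
  have hden : t.den = 1 := by
    by_contra hne
    obtain ⟨p, hp, hdvd⟩ := Nat.exists_prime_and_dvd hne
    have := Fact.mk hp
    have h1 : ‖((t.den : ℤ) : ℚ_[p])‖ < 1 :=
      Padic.norm_intCast_lt_one_iff.2 (Int.natCast_dvd_natCast.2 hdvd)
    have h2 : ‖(t.num : ℚ_[p])‖ = 1 := FA.QuadForms.norm_intCast_eq_one fun hn => by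
      have := Nat.dvd_gcd (Int.natCast_dvd.1 hn) hdvd
      rw [t.reduced] at this
      exact hp.ne_one (Nat.dvd_one.1 this)
    have h3 : (t : ℚ_[p]) * ((t.den : ℤ) : ℚ_[p]) = t.num := by
      have := congrArg (Rat.cast : ℚ → ℚ_[p]) t.mul_den_eq_num
      push_cast at this ⊢
      exact this
    rw [← h3, norm_mul] at h2
    have := mul_le_mul_of_nonneg_right (h p) (norm_nonneg ((t.den : ℤ) : ℚ_[p]))
    linarith
  exact (Rat.den_eq_one_iff t).1 hden

omit hp in
/-- **The integers are the rationals which are trace sums in every indefinite quaternion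
algebra.** -/
theorem exists_intCast_iff (t : ℚ) : (∃ n : ℤ, (n : ℚ) = t) ↔
    ∀ a b : ℚ, a ≠ 0 → b ≠ 0 → (0 < a ∨ 0 < b) → IsTraceSum a b t := by
  refine ⟨?_, fun h => eq_intCast_of_norm_le_one fun p hp => ?_⟩
  · rintro ⟨n, rfl⟩ a b ha hb hpos
    exact (isTraceSum_iff ha hb hpos).2 fun q _ _ => by
      simpa using Padic.norm_int_le_one (p := q) n
  obtain ⟨b, hb, hns⟩ := exists_ramified p
  have hp0 : (0 : ℚ) < p := Nat.cast_pos.2 hp.out.pos
  refine (isTraceSum_iff hp0.ne' (Int.cast_ne_zero.2 hb) (Or.inl hp0)).1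
    (h p b hp0.ne' (Int.cast_ne_zero.2 hb) (Or.inl hp0)) p ?_
  simpa using hns

end Fermat.Agent.RatDefinable
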