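import Fermat.Agent.QuadForms.Corollaries

/-!
# Quaternary forms whose discriminant is not a square

Over `ℚ_p` such a form is isotropic: for odd `p` by grouping the coefficients by the parity of
their valuation, for `p = 2` by a congruence modulo `32`.
-/

set_option autoImplicit false

noncomputable section

open Finset

namespace Fermat.Agent.RatDefinable

open FA.QuadForms

variable {p : ℕ} [hp : Fact p.Prime]

/-- The odd case. -/
theorem isotropic_four_odd (h2 : p ≠ 2) {c : Fin 4 → ℚ_[p]} (hc : ∀ i, c i ≠ 0)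
    (hd : ¬ IsSquare (∏ i, c i)) : Isotropic c := by
  classical
  have hcl : ∀ i, ∃ (α : ℕ) (r : ℤ) (s : ℚ_[p]), α < 2 ∧ ¬ (p : ℤ) ∣ r ∧ s ≠ 0 ∧
      c i = (r : ℚ_[p]) * (p : ℚ_[p]) ^ α * s ^ 2 := fun i => by
    obtain ⟨α, r, hα, hr, h⟩ := exists_squareClass (hc i)
    obtain ⟨s, hs, he⟩ := h r (by simp)
    exact ⟨α, r, s, hα, hr, hs, he⟩
  choose α r s hα hr hs he using hcl
  have hp0 : (p : ℚ_[p]) ≠ 0 := Nat.cast_ne_zero.2 hp.out.ne_zero
  have three : ∀ a i j k, i ≠ j → i ≠ k → j ≠ k → α i = a → α j = a → α k = a →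
      Isotropic c := by
    intro a i j k hij hik hjk hi hj hk
    refine Isotropic.of_injective ![i, j, k] (fun x y h => by
      fin_cases x <;> fin_cases y <;> simp_all [Ne.symm hij, Ne.symm hik, Ne.symm hjk]) ?_
    refine Isotropic.of_smul (inv_ne_zero (pow_ne_zero a hp0)) ?_
    refine Isotropic.of_sq (fun l => (s (![i, j, k] l))⁻¹) (fun l => inv_ne_zero (hs _))
      (fun l => ?_) (isotropic_three_units h2 (hr i) (hr j) (hr k))
    fin_cases l <;> simp [he, hi, hj, hk] <;> field_simp [hs, hp0]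
  have two : ∀ i j, i ≠ j → α i = α j → IsSquare (-((r i : ℚ_[p]) * r j)) → Isotropic c := by
    intro i j hij he' ⟨w, hw⟩
    refine Isotropic.of_injective ![i, j] (fun x y h => by
      fin_cases x <;> fin_cases y <;> simp_all [Ne.symm hij]) ?_
    rw [show (fun l => c (![i, j] l)) = ![c i, c j] by funext l; fin_cases l <;> rfl,
      isotropic_two_iff (hc i), he, he, he']
    exact ⟨w * (p : ℚ_[p]) ^ α j * (s i * s j),
      by linear_combination ((p : ℚ_[p]) ^ α j * (s i * s j)) ^ 2 * hw⟩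
  set S := univ.filter fun i => α i = 0
  set S' := univ.filter fun i => ¬ α i = 0
  have hsum : #S + #S' = 4 := card_filter_add_card_filter_not (s := univ) (fun i => α i = 0)
  have hS' : ∀ i ∈ S', α i = 1 := fun i hi => by
    have := (mem_filter.1 hi).2
    have := hα i
    omega
  have hmem : ∀ T a, (∀ i ∈ T, α i = a) → 3 ≤ #T → Isotropic c := fun T a hT h3 => by
    obtain ⟨U, hU, hcard⟩ := exists_subset_card_eq h3
    obtain ⟨i, j, k, hij, hik, hjk, rfl⟩ := card_eq_three.1 hcard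
    exact three a i j k hij hik hjk (hT i (hU (by simp))) (hT j (hU (by simp)))
      (hT k (hU (by simp)))
  by_cases h3 : 3 ≤ #S
  · exact hmem S 0 (fun i hi => (mem_filter.1 hi).2) h3
  by_cases h3' : 3 ≤ #S'
  · exact hmem S' 1 hS' h3'
  obtain ⟨i, j, hij, hS⟩ := card_eq_two.1 (show #S = 2 by omega)
  obtain ⟨k, l, hkl, hS2⟩ := card_eq_two.1 (show #S' = 2 by omega)
  have hi : α i = 0 := (mem_filter.1 (show i ∈ S by simp [hS])).2
  have hj : α j = 0 := (mem_filter.1 (show j ∈ S by simp [hS])).2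
  have hk : α k = 1 := hS' k (by simp [hS2])
  have hl : α l = 1 := hS' l (by simp [hS2])
  by_cases h1 : IsSquare (-((r i : ℚ_[p]) * r j))
  · exact two i j hij (hi.trans hj.symm) h1
  by_cases h1' : IsSquare (-((r k : ℚ_[p]) * r l))
  · exact two k l hkl (hk.trans hl.symm) h1'
  refine absurd ?_ hd
  have hP : Prime (p : ℤ) := Nat.prime_iff_prime_int.1 hp.out
  have hnd : ∀ i j, ¬ (p : ℤ) ∣ -(r i * r j) := fun i j h =>
    (hP.dvd_or_dvd (dvd_neg.1 h)).elim (hr i) (hr j)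
  have hleg : ∀ i j, ¬ IsSquare (-((r i : ℚ_[p]) * r j)) →
      legendreSym p (-(r i * r j)) = -1 := fun i j h =>
    legendreSym.eq_neg_one_iff p |>.2 fun hsq => h (by
      simpa using isSquare_of_residue h2 (hnd i j) hsq)
  obtain ⟨w, hw⟩ := isSquare_of_residue h2 (n := -(r i * r j) * -(r k * r l))
    (fun h => (hP.dvd_or_dvd h).elim (hnd i j) (hnd k l))
    ((legendreSym.eq_one_iff p (fun h0 => (hP.dvd_or_dvd
      ((ZMod.intCast_zmod_eq_zero_iff_dvd _ p).1 h0)).elim (hnd i j) (hnd k l))).1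
      (by rw [legendreSym.mul, hleg i j h1, hleg k l h1']; norm_num))
  rw [← prod_filter_mul_prod_filter_not univ (fun i => α i = 0),
    show univ.filter _ = {i, j} from hS,
    show univ.filter _ = {k, l} from hS2, prod_pair hij, prod_pair hkl, he i, he j, he k, he l, hi,
    hj, hk, hl]
  push_cast at hw
  exact ⟨w * p * (s i * s j * s k * s l),
    by linear_combination ((p : ℚ_[p]) * (s i * s j * s k * s l)) ^ 2 * hw⟩

/-- The congruence behind the dyadic case. -/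
theorem dyadic_residues : ∀ a ∈ ({1, 3, 5, 7} : Finset ℕ), ∀ i ∈ ({0, 1} : Finset ℕ),
    ∀ b ∈ ({1, 3, 5, 7} : Finset ℕ), ∀ j ∈ ({0, 1} : Finset ℕ),
    ∀ c ∈ ({1, 3, 5, 7} : Finset ℕ), ∀ k ∈ ({0, 1} : Finset ℕ),
      (i + j + k) % 2 = 0 ∧ a * b * c % 8 = 1 ∨
        ∃ f ∈ range 5, ∃ g ∈ range 5, ∃ h ∈ range 5,
          (4 + a * 2 ^ i * f ^ 2 + b * 2 ^ j * g ^ 2 + c * 2 ^ k * h ^ 2) % 32 = 0 := by
  decide

/-- The dyadic case with a unit coefficient first. -/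
theorem isotropic_four_two_zero {c : Fin 4 → ℚ_[2]} (hd : ¬ IsSquare (∏ i, c i))
    {α : Fin 4 → ℕ} {r : Fin 4 → ℤ} (hα : ∀ i, α i < 2) (h0 : α 0 = 0)
    (hr : ∀ i, ¬ (2 : ℤ) ∣ r i)
    (hcl : ∀ i, ∀ r' : ℤ, (2 : ℤ) ^ 3 ∣ r' - r i →
      ∃ s : ℚ_[2], s ≠ 0 ∧ c i = (r' : ℚ_[2]) * (2 : ℚ_[2]) ^ α i * s ^ 2) : Isotropic c := by
  let R : Fin 4 → ℕ := fun i => (r 0 * r i % 8).toNat
  have hodd : ∀ i, r i % 2 = 1 := fun i => by have := hr i; omega
  have hR : ∀ i, (R i : ℤ) = r 0 * r i % 8 := fun i => Int.toNat_of_nonneg (by omega)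
  have hRmem : ∀ i, R i ∈ ({1, 3, 5, 7} : Finset ℕ) := fun i => by
    have h := Int.mul_emod (r 0) (r i) 2
    rw [hodd 0, hodd i] at h
    have := hR i
    simp only [mem_insert, mem_singleton]
    omega
  have hαmem : ∀ i, α i ∈ ({0, 1} : Finset ℕ) := fun i => by
    have := hα i
    simp only [mem_insert, mem_singleton]
    omega
  have h1 : (r 0 * r 0) % 8 = 1 := by
    rw [Int.mul_emod]
    have := hodd 0
    rcases (show r 0 % 8 = 1 ∨ r 0 % 8 = 3 ∨ r 0 % 8 = 5 ∨ r 0 % 8 = 7 by omega) with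
      e | e | e | e <;> rw [e] <;> norm_num
  have hR0 : R 0 = 1 := by exact_mod_cast (hR 0).trans h1
  have h8 : ∀ i, (8 : ℤ) ∣ r 0 * (R i : ℤ) - r i := fun i => by
    rw [hR]
    have d1 := dvd_mul_of_dvd_right (Int.dvd_self_sub_emod (x := r 0 * r i) (m := 8)) (r 0)
    have d2 := dvd_mul_of_dvd_left (h1 ▸ Int.dvd_self_sub_emod (x := r 0 * r 0) (m := 8)) (r i)
    exact (dvd_sub d2 d1).trans (dvd_of_eq (by ring))
  choose s hs he using fun i => hcl i (r 0 * R i) (by exact_mod_cast h8 i)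
  rcases dyadic_residues _ (hRmem 1) _ (hαmem 1) _ (hRmem 2) _ (hαmem 2) _ (hRmem 3) _ (hαmem 3)
    with ⟨hev, hprod⟩ | ⟨f, -, g, -, h, -, hfgh⟩
  · refine absurd ?_ hd
    obtain ⟨w, hw⟩ := isSquare_two_of_modEq (n := ((R 1 * R 2 * R 3 : ℕ) : ℤ)) (by omega)
    obtain ⟨m, hm⟩ : ∃ m, α 1 + α 2 + α 3 = 2 * m := ⟨(α 1 + α 2 + α 3) / 2, by omega⟩
    refine ⟨(r 0 : ℚ_[2]) ^ 2 * w * (2 : ℚ_[2]) ^ m * (s 0 * s 1 * s 2 * s 3), ?_⟩
    rw [Fin.prod_univ_four, he 0, he 1, he 2, he 3, h0, hR0]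
    have hm' : (2 : ℚ_[2]) ^ α 1 * 2 ^ α 2 * 2 ^ α 3 = ((2 : ℚ_[2]) ^ m) ^ 2 := by
      rw [← pow_add, ← pow_add, hm, ← pow_mul, mul_comm]
    push_cast at hw ⊢
    linear_combination (r 0 : ℚ_[2]) ^ 4 * (s 0 * s 1 * s 2 * s 3) ^ 2 *
      ((R 1 : ℚ_[2]) * R 2 * R 3 * hm' + ((2 : ℚ_[2]) ^ m) ^ 2 * hw)
  · set N : ℕ := R 1 * 2 ^ α 1 * f ^ 2 + R 2 * 2 ^ α 2 * g ^ 2 + R 3 * 2 ^ α 3 * h ^ 2 with hN
    obtain ⟨N', hN'⟩ : ∃ N' : ℤ, -(N : ℤ) = 4 * N' ∧ (8 : ℤ) ∣ N' - 1 :=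
      ⟨-(N : ℤ) / 4, by omega, by omega⟩
    obtain ⟨w, hw⟩ := isSquare_two_of_modEq hN'.2
    have hw0 : w ≠ 0 := fun e => by
      rw [e, mul_zero, Int.cast_eq_zero] at hw
      omega
    refine ⟨![2 * w / s 0, f / s 1, g / s 2, h / s 3], fun e =>
      div_ne_zero (mul_ne_zero two_ne_zero hw0) (hs 0) (by simpa using congrFun e 0), ?_⟩
    have hcast := congrArg (Int.cast : ℤ → ℚ_[2]) hN'.1
    rw [hN] at hcast
    push_cast at hcast
    simp only [Fin.sum_univ_four, Matrix.cons_val_zero, Matrix.cons_val_one, Matrix.cons_val,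
      he 0, he 1, he 2, he 3, h0, hR0]
    push_cast
    field_simp [hs 0, hs 1, hs 2, hs 3]
    linear_combination -(r 0 : ℚ_[2]) * (4 * hw + hcast)

/-- **Quaternary forms with non-square discriminant are isotropic over every `ℚ_p`.** -/
theorem isotropic_four_of_disc {c : Fin 4 → ℚ_[p]} (hc : ∀ i, c i ≠ 0)
    (hd : ¬ IsSquare (∏ i, c i)) : Isotropic c := by
  classical
  rcases ne_or_eq p 2 with h2 | rfl
  · exact isotropic_four_odd h2 hc hd
  choose α r hα hr hcl using fun i => exists_squareClass (hc i)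
  simp only [Nat.cast_ofNat] at hr hcl
  by_cases h : ∃ i, α i = 0
  · obtain ⟨i, hi⟩ := h
    refine Isotropic.of_injective (Equiv.swap 0 i) (Equiv.injective _)
      (isotropic_four_two_zero (α := α ∘ Equiv.swap 0 i) (r := r ∘ Equiv.swap 0 i) ?_
        (fun _ => hα _) (by simp [hi]) (fun _ => hr _) fun _ => hcl _)
    rwa [Equiv.prod_comp (Equiv.swap 0 i) c]
  · push Not at h
    have h1 : ∀ i, α i = 1 := fun i => by have := hα i; have := h i; omega
    refine Isotropic.of_smul (inv_ne_zero (two_ne_zero (α := ℚ_[2])))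
      (isotropic_four_two_zero (α := fun _ => 0) (r := r) ?_ (fun _ => two_pos) rfl hr
        fun i r' hr' => ?_)
    · rintro ⟨w, hw⟩
      refine hd ⟨4 * w, ?_⟩
      rw [prod_mul_distrib, prod_const, card_univ, Fintype.card_fin] at hw
      linear_combination (16 : ℚ_[2]) * hw
    · obtain ⟨s, hs, he⟩ := hcl i r' hr'
      refine ⟨s, hs, ?_⟩
      rw [he, h1 i]
      field_simp

end Fermat.Agent.RatDefinable
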