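import Fermat.Agent.RatDefinable.Trace

/-!
# Trace sums are the rationals integral at the ramified primes

Where the quaternions `(a, b)` split every number is a trace of norm one, where they are a division
algebra only integral ones are. By the theorem of Hasse and Minkowski, for an algebra indefinite
at infinity the shifted sums of four traces are exactly the rationals integral at the ramified
primes.
-/

set_option autoImplicit false

noncomputable section

open Finset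

namespace Fermat.Agent.RatDefinable

open FA.QuadForms

/-- The sums of four traces shifted below six. -/
def IsTraceSum (a b t : ℚ) : Prop :=
  ∃ u ∈ range 6, ∃ s : Fin 4 → ℚ,
    (∀ i, IsTrace a b (s i)) ∧ t = s 0 + s 1 + s 2 + s 3 + (u : ℕ)

/-- Split quaternions have isotropic pure quaternions. -/
theorem isotropic_pure_of_iso3 {F : Type*} [Field F] {a b : F} (ha : a ≠ 0) (hb : b ≠ 0)
    (h : Iso3 a b) : Isotropic ![-a, -b, a * b] := by
  obtain ⟨x, y, z, hne, he⟩ := h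
  refine ⟨![b * y, a * x, z], fun h0 => ?_, ?_⟩
  · have h1 := congrFun h0 0
    have h2 := congrFun h0 1
    have h3 := congrFun h0 2
    simp [ha, hb] at h1 h2 h3
    simp [h1, h2, h3] at hne
  · simp only [Fin.sum_univ_three, Matrix.cons_val_zero, Matrix.cons_val_one, Matrix.cons_val]
    linear_combination -a * b * he

variable {p : ℕ} [hp : Fact p.Prime]

/-- **In a division algebra the traces of norm one are integral.** -/
theorem norm_le_one_of_isTrace {a b : ℚ} (hab : ¬ Iso3 (a : ℚ_[p]) (b : ℚ_[p])) {s : ℚ}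
    (hs : IsTrace a b s) : ‖(s : ℚ_[p])‖ ≤ 1 := by
  obtain ⟨x, rfl, hx⟩ := hs
  by_contra! h
  set X : ℚ_[p] := ((2 * x 0 : ℚ) : ℚ_[p])
  have hX : X ≠ 0 := fun e => by
    rw [e, norm_zero] at h
    exact absurd h (not_lt.2 zero_le_one)
  have hsq : IsSquare (1 - 4 / X ^ 2) := by
    refine isSquare_of_near_one ?_
    rw [sub_sub_cancel_left, norm_neg, norm_div, norm_pow]
    refine div_lt_self (norm_pos_iff.2 (by norm_num)) ?_
    exact one_lt_pow₀ h two_ne_zero
  obtain ⟨w, hw⟩ := hsq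
  have hw0 : w ≠ 0 := fun e => by
    rw [e, mul_zero, sub_eq_zero, eq_div_iff (pow_ne_zero _ hX), one_mul] at hw
    have h4 : ‖(4 : ℚ_[p])‖ ≤ 1 := by simpa using Padic.norm_int_le_one (p := p) 4
    rw [← hw, norm_pow] at h4
    exact absurd h4 (not_le.2 (one_lt_pow₀ h two_ne_zero))
  set W := X * w / 2
  have hW0 : W ≠ 0 := div_ne_zero (mul_ne_zero hX hw0) two_ne_zero
  have hx' : W ^ 2 - (a : ℚ_[p]) * (x 1 : ℚ_[p]) ^ 2 =
      (b : ℚ_[p]) * ((x 2 : ℚ_[p]) ^ 2 - a * (x 3 : ℚ_[p]) ^ 2) := by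
    have h1 := congrArg (Rat.cast : ℚ → ℚ_[p]) hx
    push_cast at h1
    have h2 : X ^ 2 - 4 = (X * w) ^ 2 := by
      field_simp at hw
      linear_combination hw
    simp only [W]
    rw [div_pow, ← h2]
    simp only [X]
    push_cast
    linear_combination h1
  refine hab ?_
  set D := (x 2 : ℚ_[p]) ^ 2 - a * (x 3 : ℚ_[p]) ^ 2 with hD
  rcases eq_or_ne D 0 with hD0 | hD0
  · rcases eq_or_ne (x 3 : ℚ_[p]) 0 with h3 | h3
    · exact ⟨x 1, 0, W, Or.inr (Or.inr hW0), by linear_combination -hx' - (b : ℚ_[p]) * hD0⟩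
    · exact ⟨x 3, 0, x 2, Or.inl h3, by linear_combination -hD0⟩
  · refine ⟨(x 1 : ℚ_[p]) * x 2 + W * x 3, D, W * x 2 + a * x 1 * x 3, Or.inr (Or.inl hD0), ?_⟩
    rw [hD] at hx' ⊢
    linear_combination -((x 2 : ℚ_[p]) ^ 2 - a * (x 3 : ℚ_[p]) ^ 2) * hx'

/-- For odd `p` units split. -/
theorem iso3_of_not_dvd {a b : ℚ} (h : ¬ (p : ℤ) ∣ 2 * a.num * a.den * b.num * b.den) :
    Iso3 (a : ℚ_[p]) (b : ℚ_[p]) := by
  have hP : Prime (p : ℤ) := Nat.prime_iff_prime_int.1 hp.out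
  rw [hP.dvd_mul, hP.dvd_mul, hP.dvd_mul, hP.dvd_mul] at h
  simp only [not_or] at h
  obtain ⟨⟨⟨⟨h2, han⟩, had⟩, hbn⟩, hbd⟩ := h
  have hp2 : p ≠ 2 := fun e => h2 (by subst e; norm_num)
  have hden : ∀ c : ℚ, (c.den : ℚ_[p]) ≠ 0 := fun c => Nat.cast_ne_zero.2 c.den_ne_zero
  have hsq : ∀ c : ℚ, (c : ℚ_[p]) * (c.den : ℚ_[p]) ^ 2 = ((c.num * c.den : ℤ) : ℚ_[p]) :=
    fun c => by
      rw [Rat.cast_def c, pow_two, ← mul_assoc, div_mul_cancel₀ _ (hden c)]
      push_cast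
      rfl
  refine Iso3.of_sq (hden a) (hden b) ?_
  rw [hsq, hsq]
  exact iso3_of_units hp2 (fun h => (hP.dvd_or_dvd h).elim han had)
    (fun h => (hP.dvd_or_dvd h).elim hbn hbd)

omit hp in
/-- A rational with non-square discriminant at the ramified primes is a trace of norm one. -/
theorem isTrace_of_local {a b : ℚ} (ha : a ≠ 0) (hb : b ≠ 0) (hpos : 0 < a ∨ 0 < b) {s : ℚ}
    (hs : ∀ (q : ℕ) [Fact q.Prime], ¬ Iso3 (a : ℚ_[q]) (b : ℚ_[q]) →
      ¬ IsSquare ((s : ℚ_[q]) ^ 2 - 4)) : IsTrace a b s := by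
  classical
  have hc : ∀ i, ![-a, -b, a * b] i ≠ 0 := fun i => by fin_cases i <;> simp [ha, hb]
  obtain ⟨x, hx⟩ : ∃ x : Fin 3 → ℚ, ∑ i, ![-a, -b, a * b] i * x i ^ 2 = 1 - (s / 2) ^ 2 := by
    refine (represents_iff hc).2 ⟨?_, fun q hq => ?_⟩
    · obtain ⟨⟨i, hi⟩, ⟨j, hj⟩⟩ :
          (∃ i, 0 < ![-a, -b, a * b] i) ∧ ∃ j, ![-a, -b, a * b] j < 0 := by
        rcases lt_or_gt_of_ne ha with h | h <;> rcases lt_or_gt_of_ne hb with h' | h'
        · exact (hpos.elim (not_lt.2 h.le) (not_lt.2 h'.le)).elim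
        · exact ⟨⟨0, by simpa using h⟩, ⟨1, by simpa using h'⟩⟩
        · exact ⟨⟨1, by simpa using h'⟩, ⟨0, by simpa using h⟩⟩
        · exact ⟨⟨2, by simpa using mul_pos h h'⟩, ⟨0, by simpa using h⟩⟩
      have hrep : ∀ (c : Fin 3 → ℝ) (i : Fin 3) (d : ℝ), c i ≠ 0 → 0 ≤ d / c i →
          ∃ x : Fin 3 → ℝ, ∑ k, c k * x k ^ 2 = d := fun c i d h0 hd => by
        refine ⟨Pi.single i √(d / c i), ?_⟩
        rw [Finset.sum_eq_single i (fun k _ hk => by simp [Pi.single_eq_of_ne hk]) (by simp),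
          Pi.single_eq_same, Real.sq_sqrt hd, mul_div_cancel₀ _ h0]
      rcases le_total 0 ((1 - (s / 2) ^ 2 : ℚ) : ℝ) with h | h
      · exact hrep _ i _ (Rat.cast_ne_zero.2 hi.ne') (div_nonneg h (Rat.cast_nonneg.2 hi.le))
      · exact hrep _ j _ (Rat.cast_ne_zero.2 hj.ne)
          (div_nonneg_of_nonpos h (Rat.cast_nonpos.2 hj.le))
    have hc' : ∀ i, ((![-a, -b, a * b] i : ℚ) : ℚ_[q]) ≠ 0 := fun i => Rat.cast_ne_zero.2 (hc i)
    refine (isotropic_option_iff hc').1 ?_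
    by_cases hsp : Iso3 (a : ℚ_[q]) (b : ℚ_[q])
    · refine Isotropic.of_injective some (Option.some_injective _) ?_
      convert isotropic_pure_of_iso3 (Rat.cast_ne_zero.2 ha) (Rat.cast_ne_zero.2 hb) hsp using 1
      funext i
      fin_cases i <;> simp
    refine Isotropic.of_injective ![none, some 0, some 1, some 2] (fun x y h => by
      fin_cases x <;> fin_cases y <;> simp_all) (isotropic_four_of_disc (fun k => ?_) ?_)
    · fin_cases k
      · show -((1 - (s / 2) ^ 2 : ℚ) : ℚ_[q]) ≠ 0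
        intro h0
        refine hs q hsp ⟨0, ?_⟩
        push_cast at h0
        linear_combination 4 * h0
      · exact hc' 0
      · exact hc' 1
      · exact hc' 2
    · rintro ⟨w, hw⟩
      refine hs q hsp ⟨2 * w / (a * b), ?_⟩
      simp only [Fin.prod_univ_four, Matrix.cons_val_zero, Matrix.cons_val_one, Matrix.cons_val,
        Option.elim] at hw
      push_cast at hw
      have ha' : (a : ℚ_[q]) ≠ 0 := Rat.cast_ne_zero.2 ha
      have hb' : (b : ℚ_[q]) ≠ 0 := Rat.cast_ne_zero.2 hb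
      field_simp at hw ⊢
      linear_combination hw
  refine ⟨![s / 2, x 0, x 1, x 2], by simp; ring, ?_⟩
  simp only [Fin.sum_univ_three, Matrix.cons_val_zero, Matrix.cons_val_one,
    Matrix.cons_val] at hx ⊢
  linear_combination hx

omit hp in
/-- **The trace sums are the rationals integral at the ramified primes.** -/
theorem isTraceSum_iff {a b : ℚ} (ha : a ≠ 0) (hb : b ≠ 0) (hpos : 0 < a ∨ 0 < b) {t : ℚ} :
    IsTraceSum a b t ↔
      ∀ (q : ℕ) [Fact q.Prime], ¬ Iso3 (a : ℚ_[q]) (b : ℚ_[q]) → ‖(t : ℚ_[q])‖ ≤ 1 := by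
  classical
  constructor
  · rintro ⟨u, -, s, hs, rfl⟩ q hq hns
    push_cast
    refine (Padic.nonarchimedean _ _).trans (max_le ((Padic.nonarchimedean _ _).trans (max_le
      ((Padic.nonarchimedean _ _).trans (max_le ((Padic.nonarchimedean _ _).trans (max_le ?_ ?_))
        ?_)) ?_)) ?_)
    iterate 4 exact norm_le_one_of_isTrace hns (hs _)
    simpa using Padic.norm_int_le_one (p := q) (u : ℤ)
  intro ht
  set N := (2 * a.num * a.den * b.num * b.den).natAbs
  have hN : N ≠ 0 := by simp [N, ha, hb, a.den_ne_zero, b.den_ne_zero]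
  have hbad : ∀ (q : ℕ) [Fact q.Prime], ¬ Iso3 (a : ℚ_[q]) (b : ℚ_[q]) → q ∈ N.primeFactors :=
    fun q hq hns => Nat.mem_primeFactors.2 ⟨hq.out,
      Int.natCast_dvd.1 (not_not.1 fun h => hns (iso3_of_not_dvd h)), hN⟩
  have hcast : ∀ (q : ℕ) [Fact q.Prime] (m n : ℤ), (q : ℤ) ^ 1 ∣ m - n →
      (m : ZMod q) = (n : ZMod q) := fun q _ m n h => by
    rw [ZMod.intCast_eq_intCast_iff_dvd_sub, ← dvd_neg, neg_sub]
    simpa using h
  -- the residues of `t`
  have hτ : ∀ q : ℕ, ∃ τ : ℤ, ∀ [Fact q.Prime], ∀ h : ‖(t : ℚ_[q])‖ ≤ 1,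
      PadicInt.toZMod (⟨_, h⟩ : ℤ_[q]) = (τ : ZMod q) := fun q => by
    by_cases hq : q.Prime
    · have := Fact.mk hq
      by_cases h : ‖(t : ℚ_[q])‖ ≤ 1
      · obtain ⟨τ, hτ⟩ := ZMod.intCast_surjective (PadicInt.toZMod (⟨_, h⟩ : ℤ_[q]))
        exact ⟨τ, fun _ => hτ.symm⟩
      · exact ⟨0, fun h' => absurd h' h⟩
    · exact ⟨0, fun {h} => absurd h.out hq⟩
  choose τ hτ using hτ
  have hfac : ∀ q ∈ N.primeFactors, q.Prime := fun q hq => Nat.prime_of_mem_primeFactors hq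
  obtain ⟨n, hn⟩ := exists_int_congr N.primeFactors hfac (fun _ => 1) τ
  set u := (n % 6).toNat
  have hu : (u : ℤ) = n % 6 := Int.toNat_of_nonneg (by omega)
  have hA : ∀ q : ℕ, ∃ A : Fin 3 → ℤ, ∀ [Fact q.Prime], (∀ i, Irred q (A i : ZMod q)) ∧
      Irred q ((n - u - A 0 - A 1 - A 2 : ℤ) : ZMod q) := fun q => by
    by_cases hq : q.Prime
    · have := Fact.mk hq
      obtain ⟨v, hv, hsum⟩ := exists_four_irred (p := q) ((n - u : ℤ) : ZMod q) fun h5 => by
        rw [ZMod.intCast_zmod_eq_zero_iff_dvd]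
        have := hq.two_le
        rcases (show q = 2 ∨ q = 3 ∨ q = 4 by omega) with rfl | rfl | rfl
        · omega
        · omega
        · norm_num at hq
      choose A hA using fun i : Fin 4 => ZMod.intCast_surjective (v i)
      refine ⟨![A 0, A 1, A 2], ⟨fun i => ?_, ?_⟩⟩
      · fin_cases i <;> simp [hA, hv]
      · convert hv 3
        push_cast at hsum ⊢
        simp only [hA]
        linear_combination -hsum
    · exact ⟨0, fun {h} => absurd h.out hq⟩
  choose A hA using hA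
  choose s hs using fun i : Fin 3 => exists_int_congr N.primeFactors hfac (fun _ => 1)
    fun q => A q i
  have hint : ∀ (q : ℕ) [Fact q.Prime], ¬ Iso3 (a : ℚ_[q]) (b : ℚ_[q]) → ∀ (i : Fin 3),
      ¬ IsSquare (((s i : ℚ) : ℚ_[q]) ^ 2 - 4) := fun q _ hns i => by
    have h := not_isSquare_of_irred (p := q) (s := ((s i : ℤ) : ℤ_[q])) (by
      rw [map_intCast, hcast q _ _ (hs i q (hbad q hns))]
      exact (hA q).1 i)
    simpa using h
  refine ⟨u, mem_range.2 (by omega), ![(s 0 : ℚ), s 1, s 2, t - u - s 0 - s 1 - s 2],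
    fun i => isTrace_of_local ha hb hpos fun q hq hns => ?_, by simp⟩
  fin_cases i
  · exact hint q hns 0
  · exact hint q hns 1
  · exact hint q hns 2
  · let T : ℤ_[q] := ⟨_, ht q hns⟩
    have h := not_isSquare_of_irred (p := q) (s := T - (u : ℤ_[q]) - ((s 0 : ℤ) : ℤ_[q]) -
      ((s 1 : ℤ) : ℤ_[q]) - ((s 2 : ℤ) : ℤ_[q])) (by
      have hqm := hbad q hns
      rw [map_sub, map_sub, map_sub, map_sub, map_natCast, map_intCast, map_intCast, map_intCast,
        hτ q (ht q hns), ← hcast q _ _ (hn q hqm), hcast q _ _ (hs 0 q hqm),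
        hcast q _ _ (hs 1 q hqm), hcast q _ _ (hs 2 q hqm)]
      have h2 := (hA q).2
      push_cast at h2
      exact h2)
    simpa [T] using h

end Fermat.Agent.RatDefinable
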