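import Fermat.Agent.RatDefinable.Definable

/-!
# Diophantine sets over the field `ℚ`

Projections of zero sets of integral polynomials, closed under intersections, unions, projections
and changes of variables.
-/

set_option autoImplicit false

noncomputable section

open MvPolynomial

namespace Fermat.Agent.RatDefinable

/-- A set of rational tuples which is the projection of a zero set. -/
def RatDioph {ι : Type} (S : Set (ι → ℚ)) : Prop :=
  ∃ (κ : Type) (_ : Fintype κ) (P : MvPolynomial (ι ⊕ κ) ℤ),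
    ∀ v, v ∈ S ↔ ∃ z : κ → ℚ, aeval (Sum.elim v z) P = 0

variable {ι κ β : Type}

theorem ratDioph_zeroSet (P : MvPolynomial ι ℤ) : RatDioph {v : ι → ℚ | aeval v P = 0} :=
  ⟨Empty, inferInstance, rename Sum.inl P, fun v => by simp [aeval_rename]⟩

theorem RatDioph.congr {S T : Set (ι → ℚ)} (h : RatDioph S) (he : ∀ v, v ∈ T ↔ v ∈ S) :
    RatDioph T := by
  rwa [show T = S from Set.ext he]

theorem RatDioph.comap {S : Set (ι → ℚ)} (h : RatDioph S) (f : ι → β) :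
    RatDioph {v : β → ℚ | v ∘ f ∈ S} := by
  obtain ⟨κ, hκ, P, hP⟩ := h
  refine ⟨κ, hκ, rename (Sum.map f id) P, fun v => (hP _).trans (exists_congr fun z => ?_)⟩
  rw [aeval_rename, Sum.elim_comp_map, Function.comp_id]

theorem RatDioph.inter {S T : Set (ι → ℚ)} (hS : RatDioph S) (hT : RatDioph T) :
    RatDioph (S ∩ T) := by
  obtain ⟨κ, _, P, hP⟩ := hS
  obtain ⟨μ, _, Q, hQ⟩ := hT
  refine ⟨κ ⊕ μ, inferInstance,
    rename (Sum.map id Sum.inl) P ^ 2 + rename (Sum.map id Sum.inr) Q ^ 2, fun v => ?_⟩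
  have hsq : ∀ x y : ℚ, x ^ 2 + y ^ 2 = 0 ↔ x = 0 ∧ y = 0 := fun x y => by
    rw [add_eq_zero_iff_of_nonneg (sq_nonneg x) (sq_nonneg y), sq_eq_zero_iff, sq_eq_zero_iff]
  simp only [map_add, map_pow, aeval_rename, Sum.elim_comp_map, Function.comp_id, hsq]
  rw [Set.mem_inter_iff, hP, hQ]
  constructor
  · rintro ⟨⟨z, hz⟩, w, hw⟩
    exact ⟨Sum.elim z w, hz, hw⟩
  · rintro ⟨z, hz, hw⟩
    exact ⟨⟨_, hz⟩, _, hw⟩

theorem RatDioph.union {S T : Set (ι → ℚ)} (hS : RatDioph S) (hT : RatDioph T) :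
    RatDioph (S ∪ T) := by
  obtain ⟨κ, _, P, hP⟩ := hS
  obtain ⟨μ, _, Q, hQ⟩ := hT
  refine ⟨κ ⊕ μ, inferInstance,
    rename (Sum.map id Sum.inl) P * rename (Sum.map id Sum.inr) Q, fun v => ?_⟩
  simp only [map_mul, aeval_rename, Sum.elim_comp_map, Function.comp_id, mul_eq_zero]
  rw [Set.mem_union, hP, hQ]
  constructor
  · rintro (⟨z, hz⟩ | ⟨w, hw⟩)
    · exact ⟨Sum.elim z 0, Or.inl hz⟩
    · exact ⟨Sum.elim 0 w, Or.inr hw⟩
  · rintro ⟨z, hz | hw⟩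
    · exact Or.inl ⟨_, hz⟩
    · exact Or.inr ⟨_, hw⟩

theorem RatDioph.exists [Fintype β] {S : Set (ι ⊕ β → ℚ)} (h : RatDioph S) :
    RatDioph {v : ι → ℚ | ∃ w : β → ℚ, Sum.elim v w ∈ S} := by
  obtain ⟨κ, _, P, hP⟩ := h
  refine ⟨β ⊕ κ, inferInstance, rename (Equiv.sumAssoc ι β κ) P, fun v => ?_⟩
  have key : ∀ (w : β → ℚ) (z : κ → ℚ),
      Sum.elim v (Sum.elim w z) ∘ Equiv.sumAssoc ι β κ = Sum.elim (Sum.elim v w) z := fun w z =>
    funext fun i => by rcases i with (i | i) | i <;> rfl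
  simp only [aeval_rename, Set.mem_ofPred_eq, hP]
  constructor
  · rintro ⟨w, z, hz⟩
    exact ⟨Sum.elim w z, by rwa [key]⟩
  · rintro ⟨z, hz⟩
    refine ⟨z ∘ Sum.inl, z ∘ Sum.inr, ?_⟩
    rwa [← key, Sum.elim_comp_inl_inr]

/-- A Diophantine set in one variable by one polynomial in finitely many variables. -/
theorem RatDioph.exists_polynomial {S : Set (Fin 1 → ℚ)} (h : RatDioph S) :
    ∃ (m : ℕ) (P : MvPolynomial (Fin (m + 1)) ℤ), ∀ t : ℚ,
      (fun _ => t) ∈ S ↔ ∃ x : Fin m → ℚ, aeval (Fin.cons t x) P = 0 := by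
  obtain ⟨κ, _, P, hP⟩ := h
  let f := Fintype.equivFin κ
  let e : Fin 1 ⊕ κ → Fin (Fintype.card κ + 1) := Sum.elim (fun _ => 0) fun i => (f i).succ
  refine ⟨_, rename e P, fun t => (hP _).trans ?_⟩
  have key : ∀ x : Fin (Fintype.card κ) → ℚ,
      (Fin.cons t x : Fin (Fintype.card κ + 1) → ℚ) ∘ e = Sum.elim (fun _ => t) (x ∘ f) :=
    fun x => funext fun i => by rcases i with i | i <;> rfl
  constructor
  · rintro ⟨z, hz⟩
    refine ⟨z ∘ f.symm, ?_⟩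
    rwa [aeval_rename, key, Function.comp_assoc, Equiv.symm_comp_self, Function.comp_id]
  · rintro ⟨x, hx⟩
    rw [aeval_rename, key] at hx
    exact ⟨_, hx⟩

/-- Trace sums form a Diophantine set. -/
theorem ratDioph_isTraceSum : RatDioph {v : Fin 3 → ℚ | IsTraceSum (v 0) (v 1) (v 2)} := by
  let a : MvPolynomial (Fin 3 ⊕ Fin 4 × Fin 4) ℤ := X (Sum.inl 0)
  let b : MvPolynomial (Fin 3 ⊕ Fin 4 × Fin 4) ℤ := X (Sum.inl 1)
  let t : MvPolynomial (Fin 3 ⊕ Fin 4 × Fin 4) ℤ := X (Sum.inl 2)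
  let x : Fin 4 → Fin 4 → MvPolynomial (Fin 3 ⊕ Fin 4 × Fin 4) ℤ := fun i j => X (Sum.inr (i, j))
  refine (ratDioph_zeroSet
    (∑ i, (x i 0 ^ 2 - a * x i 1 ^ 2 - b * x i 2 ^ 2 + a * b * x i 3 ^ 2 - 1) ^ 2 +
      (∏ u ∈ Finset.range 6, (t - (2 * x 0 0 + 2 * x 1 0 + 2 * x 2 0 + 2 * x 3 0 + (u : ℕ)))) ^ 2 :
      MvPolynomial (Fin 3 ⊕ Fin 4 × Fin 4) ℤ)).exists.congr fun v => ?_
  simp only [a, b, t, x, Set.mem_ofPred_eq, map_mul, map_add, map_sub, map_pow, map_sum, map_prod,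
    map_one, map_ofNat, map_natCast, aeval_X]
  constructor
  · rintro ⟨u, hu, s, hs, hv⟩
    choose x hx hx1 using hs
    refine ⟨fun ij => x ij.1 ij.2, ?_⟩
    simp only [Sum.elim_inl, Sum.elim_inr]
    rw [Finset.prod_eq_zero hu (by rw [hv, hx, hx, hx, hx, sub_self]),
      Finset.sum_eq_zero fun i _ => by rw [hx1 i, sub_self, zero_pow two_ne_zero]]
    simp
  · rintro ⟨z, hz⟩
    simp only [Sum.elim_inl, Sum.elim_inr] at hz
    obtain ⟨h1, h2⟩ := (add_eq_zero_iff_of_nonneg (Finset.sum_nonneg fun i _ => sq_nonneg _)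
      (sq_nonneg _)).1 hz
    rw [sq_eq_zero_iff, Finset.prod_eq_zero_iff] at h2
    obtain ⟨u, hu, hu'⟩ := h2
    refine ⟨u, hu, fun i => 2 * z (i, 0), fun i => ⟨fun j => z (i, j), rfl, ?_⟩,
      sub_eq_zero.1 hu'⟩
    have h3 := (Finset.sum_eq_zero_iff_of_nonneg fun k _ => sq_nonneg _).1 h1 i (Finset.mem_univ i)
    rw [sq_eq_zero_iff, sub_eq_zero] at h3
    exact h3

end Fermat.Agent.RatDefinable
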