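import Fermat.Agent.RatDefinable.Quaternary
import Mathlib.Combinatorics.Additive.CauchyDavenport

/-!
# Traces of quaternions of norm one

A number in `ℤ_p` is the trace of an element of norm one in the division quaternions over `ℚ_p` as
soon as its characteristic polynomial is irreducible modulo `p`; every residue is a sum of four such
residues, up to a shift below six.
-/

set_option autoImplicit false

noncomputable section

open Finset
open scoped Pointwise

namespace Fermat.Agent.RatDefinable

open FA.QuadForms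

/-- A trace of a quaternion of norm one. -/
def IsTrace (a b s : ℚ) : Prop :=
  ∃ x : Fin 4 → ℚ, s = 2 * x 0 ∧ x 0 ^ 2 - a * x 1 ^ 2 - b * x 2 ^ 2 + a * b * x 3 ^ 2 = 1

/-- A residue `u` with `X ² - u X + 1` irreducible. -/
def Irred (p : ℕ) (u : ZMod p) : Prop := ∀ x : ZMod p, x * x - u * x + 1 ≠ 0

theorem irred_two : Irred 2 1 ∧ (1 : ZMod 2) + 1 + 1 + 1 = 0 :=
  ⟨show ∀ x : ZMod 2, x * x - 1 * x + 1 ≠ 0 by decide, by decide⟩

theorem irred_three : Irred 3 0 ∧ (0 : ZMod 3) + 0 + 0 + 0 = 0 :=
  ⟨show ∀ x : ZMod 3, x * x - 0 * x + 1 ≠ 0 by decide, by decide⟩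

variable {p : ℕ} [hp : Fact p.Prime]

/-- At least half of the residues are of this kind. -/
theorem exists_irred_finset (h5 : 5 ≤ p) :
    ∃ U : Finset (ZMod p), (∀ u ∈ U, Irred p u) ∧ p ≤ 2 * #U + 1 := by
  classical
  have : Fact (2 < p) := ⟨by omega⟩
  let f : ZMod p → ZMod p := fun x => x + x⁻¹
  set G : Finset (ZMod p) := univ \ {0, 1, -1}
  have h11 : (1 : ZMod p) ≠ -1 := (ZMod.neg_one_ne_one).symm
  have h01 : (0 : ZMod p) ∉ ({1, -1} : Finset (ZMod p)) := by simp
  have hG : #G + 3 = p := by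
    rw [card_univ_sdiff, ZMod.card, card_insert_of_notMem h01, card_pair h11]
    omega
  have himg : #(G.image f) * 2 ≤ #G := by
    rw [mul_comm]
    refine mul_card_image_le_card G 2 fun v hv => ?_
    obtain ⟨x, hx, rfl⟩ := mem_image.1 hv
    simp only [G, mem_sdiff, mem_univ, true_and, mem_insert, mem_singleton, not_or] at hx
    obtain ⟨hx0, hx1, hx2⟩ := hx
    have hne : x ≠ x⁻¹ := fun h => by
      have h2 : x * x = 1 := by nth_rewrite 2 [h]; exact mul_inv_cancel₀ hx0
      exact (mul_self_eq_one_iff.1 h2).elim hx1 hx2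
    have hsub : ({x, x⁻¹} : Finset (ZMod p)) ⊆ G.filter (f · = f x) := by
      intro y hy
      simp only [mem_insert, mem_singleton] at hy
      rcases hy with rfl | rfl
      · simp [G, hx0, hx1, hx2]
      · simp [G, hx0, hx1, inv_eq_iff_eq_inv, hx2, f, add_comm]
    exact le_trans (by rw [card_pair hne]) (card_le_card hsub)
  refine ⟨univ \ (G.image f ∪ {2, -2}), fun u hu x hx => ?_, ?_⟩
  · simp only [mem_sdiff, mem_univ, true_and, mem_union, mem_insert, mem_singleton, not_or] at hu
    have hx0 : x ≠ 0 := fun h => by simp [h] at hx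
    have hu' : u = f x := by
      refine mul_right_cancel₀ hx0 ?_
      rw [add_mul, inv_mul_cancel₀ hx0]
      linear_combination -hx
    by_cases h1 : x = 1
    · exact hu.2.1 (by rw [hu', h1]; simp [f]; norm_num)
    by_cases h2 : x = -1
    · exact hu.2.2 (by rw [hu', h2]; simp [f]; norm_num)
    exact hu.1 (mem_image.2 ⟨x, by simp [G, hx0, h1, h2], hu'.symm⟩)
  · rw [card_univ_sdiff, ZMod.card]
    have := card_union_le (G.image f) ({2, -2} : Finset (ZMod p))
    have : #({2, -2} : Finset (ZMod p)) ≤ 2 := card_le_two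
    omega

/-- **Four residues of this kind sum to everything**, to zero when `p ≤ 3`. -/
theorem exists_four_irred (T : ZMod p) (hT : p < 5 → T = 0) :
    ∃ u : Fin 4 → ZMod p, (∀ i, Irred p (u i)) ∧ u 0 + u 1 + u 2 + u 3 = T := by
  classical
  by_cases h5 : p < 5
  · rw [hT h5]
    rcases (show p = 2 ∨ p = 3 by
      have := hp.out.two_le
      rcases (show p = 2 ∨ p = 3 ∨ p = 4 by omega) with h | h | h
      · exact Or.inl h
      · exact Or.inr h
      · exact absurd (h ▸ hp.out) (by norm_num)) with rfl | rfl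
    · exact ⟨fun _ => 1, fun _ => irred_two.1, irred_two.2⟩
    · exact ⟨fun _ => 0, fun _ => irred_three.1, irred_three.2⟩
  obtain ⟨U, hU, hcard⟩ := exists_irred_finset (p := p) (not_lt.1 h5)
  have hne : U.Nonempty := card_pos.1 (by omega)
  have h2 := ZMod.cauchy_davenport hp.out hne hne
  have h4 := ZMod.cauchy_davenport hp.out (hne.add hne) (hne.add hne)
  have hall : U + U + (U + U) = univ := eq_univ_of_card _ (le_antisymm (card_le_univ _) (by
    rw [ZMod.card]
    omega))
  have hmem : T ∈ U + U + (U + U) := hall ▸ mem_univ T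
  simp only [mem_add] at hmem
  obtain ⟨_, ⟨a, ha, b, hb, rfl⟩, _, ⟨c, hc, d, hd, rfl⟩, rfl⟩ := hmem
  exact ⟨![a, b, c, d], fun i => hU _ (by fin_cases i <;> assumption), by simp [add_assoc]⟩

/-- Above such a residue the discriminant is not a square in `ℚ_p`. -/
theorem not_isSquare_of_irred {s : ℤ_[p]} (hs : Irred p (PadicInt.toZMod s)) :
    ¬ IsSquare ((s : ℚ_[p]) ^ 2 - 4) := by
  rintro ⟨w, hw⟩
  set y : ℚ_[p] := ((s : ℚ_[p]) + w) / 2
  have hy : y * y - (s : ℚ_[p]) * y + 1 = 0 := by
    simp only [y]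
    field_simp
    linear_combination -hw
  have hy1 : ‖y‖ ≤ 1 := by
    by_contra! h
    have h1 : ‖(s : ℚ_[p]) * y - 1‖ ≤ ‖y‖ := by
      rw [sub_eq_add_neg]
      refine (Padic.nonarchimedean _ _).trans (max_le ?_ ?_)
      · rw [norm_mul]
        exact mul_le_of_le_one_left (norm_nonneg _) s.2
      · rw [norm_neg, norm_one]
        exact h.le
    rw [← show y * y = (s : ℚ_[p]) * y - 1 by linear_combination hy, norm_mul] at h1
    exact absurd h1 (not_le.2 (lt_mul_of_one_lt_left (zero_lt_one.trans h) h))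
  let Y : ℤ_[p] := ⟨y, hy1⟩
  have hY : Y * Y - s * Y + 1 = 0 := Subtype.ext (by push_cast; exact hy)
  refine hs (PadicInt.toZMod Y) ?_
  have := congrArg PadicInt.toZMod hY
  simpa using this

end Fermat.Agent.RatDefinable
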