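import Fermat.Agent.RatDefinable.RatDioph

/-!
# The non-integers form a Diophantine set

An algebra `(a, b)` with `a`, `b ≡ 3` modulo `4` and indefinite at infinity is ramified at `2`, so
by reciprocity at some odd `p`, where `a` or `b` has odd valuation. If `c` has odd valuation at `p`
and `c r² e`, `1 - c r² e` are `p`-adic units times squares as shown, then `c r² e` vanishes at
`p`: this recognises the rationals with a pole at an odd prime; a pole at `2` is recognised by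
sums of three squares.
-/

set_option autoImplicit false

noncomputable section

open MvPolynomial

namespace Fermat.Agent.RatDefinable

open FA.QuadForms

/-- `2 + 7 x²` is a sum of three squares. -/
def TwoIntegral (x : ℚ) : Prop := ∃ s : Fin 3 → ℚ, s 0 ^ 2 + s 1 ^ 2 + s 2 ^ 2 = 2 + 7 * x ^ 2

theorem two_add_seven_ne : ∀ a b : ZMod (2 ^ 3), b * b + (2 + 7 * a ^ 2) ≠ 0 := by decide

/-- **The rationals integral at `2` by three squares.** -/
theorem twoIntegral_iff {x : ℚ} : TwoIntegral x ↔ ‖(x : ℚ_[2])‖ ≤ 1 := by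
  have hpos : 0 < 2 + 7 * x ^ 2 := by positivity
  have h3 : TwoIntegral x ↔ ¬ IsSquare (-((2 + 7 * x ^ 2 : ℚ) : ℚ_[2])) := by
    refine Iff.trans ?_ ((three_squares_rat hpos.ne').trans (and_iff_right hpos))
    exact ⟨fun ⟨s, hs⟩ => ⟨_, _, _, hs⟩, fun ⟨x, y, z, h⟩ => ⟨![x, y, z], h⟩⟩
  rw [h3]
  push_cast
  constructor
  · intro h
    by_contra! hlt
    have hx0 : (x : ℚ_[2]) ≠ 0 := fun e => by
      rw [e, norm_zero] at hlt
      exact absurd hlt (not_lt.2 zero_le_one)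
    have h2 : ‖(2 : ℚ_[2])‖ = 1 / 2 := by simpa using Padic.norm_p (p := 2)
    have hle : (2 : ℝ) ≤ ‖(x : ℚ_[2])‖ := by
      rw [Padic.norm_eq_zpow_neg_valuation hx0] at hlt ⊢
      have h1 : (1 : ℤ) ≤ -(x : ℚ_[2]).valuation := by
        by_contra! h0
        exact absurd hlt (not_lt.2 (zpow_le_one_of_nonpos₀ (by norm_num) (by omega)))
      simpa using zpow_le_zpow_right₀ (show (1 : ℝ) ≤ ((2 : ℕ) : ℝ) by norm_num) h1
    obtain ⟨w, hw⟩ := isSquare_of_near_one (p := 2) (u := -7 - 2 / (x : ℚ_[2]) ^ 2) (by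
      rw [show (-7 : ℚ_[2]) - 2 / (x : ℚ_[2]) ^ 2 - 1 = -(2 ^ 3 + 2 / (x : ℚ_[2]) ^ 2) by ring,
        norm_neg, show (4 : ℚ_[2]) = 2 ^ 2 by norm_num, norm_pow, h2]
      refine lt_of_le_of_lt (Padic.nonarchimedean _ _) (max_lt ?_ ?_)
      · rw [norm_pow, h2]
        norm_num
      · rw [norm_div, norm_pow, h2, div_lt_iff₀ (pow_pos (by linarith) 2)]
        nlinarith)
    refine h ⟨w * x, ?_⟩
    field_simp at hw
    linear_combination hw
  · rintro hx ⟨w, hw⟩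
    have hw1 : ‖w‖ ≤ 1 := by
      refine (pow_le_one_iff_of_nonneg (norm_nonneg w) two_ne_zero).1 ?_
      rw [← norm_pow, pow_two, ← hw, norm_neg]
      refine (Padic.nonarchimedean _ _).trans (max_le ?_ ?_)
      · simpa using Padic.norm_int_le_one (p := 2) 2
      · rw [norm_mul, norm_pow]
        exact mul_le_one₀ (by simpa using Padic.norm_int_le_one (p := 2) 7) (by positivity)
          (pow_le_one₀ (norm_nonneg _) hx)
    let X : ℤ_[2] := ⟨(x : ℚ_[2]), hx⟩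
    let W : ℤ_[2] := ⟨w, hw1⟩
    have h : W * W + (((2 : ℕ) : ℤ_[2]) + ((7 : ℕ) : ℤ_[2]) * X ^ 2) = 0 := Subtype.ext (by
      show w * w + (((2 : ℕ) : ℚ_[2]) + ((7 : ℕ) : ℚ_[2]) * (x : ℚ_[2]) ^ 2) = 0
      push_cast
      linear_combination -hw)
    have h' := congrArg (PadicInt.toZModPow 3) h
    simp only [map_add, map_mul, map_pow, map_natCast, map_zero] at h'
    exact two_add_seven_ne _ _ (by exact_mod_cast h')

theorem twoIntegral_of_emod {n : ℤ} (hn : n % 4 = 3) : TwoIntegral (((n : ℚ) - 3) / 4) := by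
  refine twoIntegral_iff.2 ?_
  rw [show ((n : ℚ) - 3) / 4 = (((n - 3) / 4 : ℤ) : ℚ) by
    rw [Int.cast_div (by omega) (by norm_num)]; push_cast; rfl, Rat.cast_intCast]
  exact Padic.norm_int_le_one (p := 2) _

/-- `y` is a multiple in the trace sums of some `y₀ = c r² e` with `1 - y₀ = r'² e'`, where `e`
and `e'` are units of the trace sums. -/
def VanishCond (a b c y : ℚ) : Prop :=
  ∃ y₀ z r e f r' e' f' : ℚ, y = y₀ * z ∧ IsTraceSum a b z ∧ y₀ = c * r ^ 2 * e ∧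
    IsTraceSum a b e ∧ IsTraceSum a b f ∧ e * f = 1 ∧ 1 - y₀ = r' ^ 2 * e' ∧
      IsTraceSum a b e' ∧ IsTraceSum a b f' ∧ e' * f' = 1

/-- The condition defining the non-integers. -/
def NonIntegral (t : ℚ) : Prop :=
  (∃ z, TwoIntegral z ∧ 2 * z * t = 1) ∨
    ∃ a b y α β : ℚ, a = 3 + 4 * α ∧ TwoIntegral α ∧ b = 3 + 4 * β ∧ TwoIntegral β ∧
      (0 < a ∨ 0 < b) ∧ y * t = 1 ∧ VanishCond a b a y ∧ VanishCond a b b y

theorem ne_zero_of_three {a α : ℚ} (ha : a = 3 + 4 * α) (hα : TwoIntegral α) : a ≠ 0 := by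
  rintro rfl
  have h := twoIntegral_iff.1 hα
  rw [show α = -3 / 4 by linarith] at h
  push_cast at h
  rw [norm_div, norm_neg, show (4 : ℚ_[2]) = ((2 : ℕ) : ℚ_[2]) ^ 2 by norm_num, norm_pow,
    Padic.norm_p, show ‖(3 : ℚ_[2])‖ = 1 by
      simpa using norm_intCast_eq_one (p := 2) (n := 3) (by norm_num)] at h
  norm_num at h

theorem exists_mul_sq_eq {a α : ℚ} (ha : a = 3 + 4 * α) (hα : TwoIntegral α) :
    ∃ A d : ℤ, A % 4 = 3 ∧ d ≠ 0 ∧ (A : ℚ) = a * (d : ℚ) ^ 2 := by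
  have hd : ¬ 2 ∣ α.den := fun hdvd => by
    have h1 : ‖((α.den : ℤ) : ℚ_[2])‖ < 1 :=
      Padic.norm_intCast_lt_one_iff.2 (Int.natCast_dvd_natCast.2 hdvd)
    have h2 : ‖(α.num : ℚ_[2])‖ = 1 := norm_intCast_eq_one fun hn => by
      have := Nat.dvd_gcd (Int.natCast_dvd.1 hn) hdvd
      rw [α.reduced] at this
      norm_num at this
    have h3 : (α : ℚ_[2]) * ((α.den : ℤ) : ℚ_[2]) = α.num := by
      have := congrArg (Rat.cast : ℚ → ℚ_[2]) α.mul_den_eq_num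
      push_cast at this ⊢
      exact this
    rw [← h3, norm_mul] at h2
    nlinarith [twoIntegral_iff.1 hα, norm_nonneg ((α.den : ℤ) : ℚ_[2]),
      norm_nonneg (α : ℚ_[2])]
  refine ⟨3 * (α.den : ℤ) ^ 2 + 4 * (α.num * α.den), α.den, ?_, by simp [α.den_ne_zero], ?_⟩
  · have h : ((α.den : ℤ) ^ 2) % 4 = 1 := by
      have : (α.den : ℤ) % 4 = 1 ∨ (α.den : ℤ) % 4 = 3 := by omega
      rw [pow_two, Int.mul_emod]
      rcases this with e | e <;> rw [e] <;> norm_num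
    omega
  · push_cast
    rw [ha, ← α.mul_den_eq_num]
    ring

/-- **Reciprocity gives an odd prime of ramification where `a` or `b` has odd valuation.** -/
theorem exists_odd_ramified {a b : ℚ} {A B d d' : ℤ} (hA : A % 4 = 3) (hB : B % 4 = 3)
    (hd : d ≠ 0) (hd' : d' ≠ 0) (ha : (A : ℚ) = a * (d : ℚ) ^ 2)
    (hb : (B : ℚ) = b * (d' : ℚ) ^ 2) (hpos : 0 < a ∨ 0 < b) :
    ∃ (p : ℕ) (_ : Fact p.Prime), p ≠ 2 ∧ ¬ Iso3 (a : ℚ_[p]) (b : ℚ_[p]) ∧
      ∃ c : ℚ, (c = a ∨ c = b) ∧ ∀ k : ℤ, ‖(c : ℚ_[p])‖ ≠ (p : ℝ) ^ (2 * k) := by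
  classical
  have hA0 : A ≠ 0 := by omega
  have hB0 : B ≠ 0 := by omega
  obtain ⟨p, hp, hp2, hns⟩ : ∃ (p : ℕ) (_ : Fact p.Prime), p ≠ 2 ∧
      ¬ Iso3 (a : ℚ_[p]) (b : ℚ_[p]) := by
    by_contra! hall
    have h := sym_eq_one_of_others hA0 hB0 2 fun v hv => by
      by_cases hv0 : v = 0
      · subst hv0
        rw [sym_zero, symReal, if_neg]
        rintro ⟨hA', hB'⟩
        have hA'' : (A : ℚ) < 0 := Int.cast_lt_zero.2 hA'
        have hB'' : (B : ℚ) < 0 := Int.cast_lt_zero.2 hB'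
        rw [ha] at hA''
        rw [hb] at hB''
        rcases hpos with h | h
        · exact absurd hA'' (not_lt.2 (mul_nonneg h.le (sq_nonneg _)))
        · exact absurd hB'' (not_lt.2 (mul_nonneg h.le (sq_nonneg _)))
      by_cases hvp : v.Prime
      · have := Fact.mk hvp
        refine sym_eq_one_of_iso hA0 hB0 ?_
        have h1 := (hall v this hv).mul_sq (Int.cast_ne_zero.2 hd : (d : ℚ_[v]) ≠ 0)
          (Int.cast_ne_zero.2 hd' : (d' : ℚ_[v]) ≠ 0)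
        have ea := congrArg (Rat.cast : ℚ → ℚ_[v]) ha
        have eb := congrArg (Rat.cast : ℚ → ℚ_[v]) hb
        push_cast at ea eb
        rwa [← ea, ← eb] at h1
      · rw [sym, if_neg hv0, if_neg hv, if_neg hvp]
    rw [sym_two, symTwo_odd (by omega) (by omega), sym4, if_pos ⟨hA, hB⟩] at h
    norm_num at h
  refine ⟨p, hp, hp2, hns, ?_⟩
  by_contra! heven
  obtain ⟨k, hk⟩ := heven a (Or.inl rfl)
  obtain ⟨l, hl⟩ := heven b (Or.inr rfl)
  have hp1 : (1 : ℝ) < p := Nat.one_lt_cast.2 hp.out.one_lt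
  have hunit : ∀ (x : ℚ) (k : ℤ), ‖(x : ℚ_[p])‖ = (p : ℝ) ^ (2 * k) →
      ∃ (r : ℤ) (s : ℚ_[p]), ¬ (p : ℤ) ∣ r ∧ s ≠ 0 ∧ (x : ℚ_[p]) = (r : ℚ_[p]) * s ^ 2 := by
    intro x k hxk
    have hx0 : (x : ℚ_[p]) ≠ 0 := norm_ne_zero_iff.1 (by
      rw [hxk]
      exact zpow_ne_zero _ (zero_lt_one.trans hp1).ne')
    obtain ⟨α, r, hα, hr, hcl⟩ := exists_squareClass hx0
    obtain ⟨s, hs, he⟩ := hcl r (by simp)
    rw [he, norm_mul, norm_mul, norm_intCast_eq_one hr, one_mul, norm_pow, norm_pow, Padic.norm_p,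
      Padic.norm_eq_zpow_neg_valuation hs, inv_pow, ← zpow_natCast (p : ℝ) α, ← zpow_neg,
      ← zpow_natCast ((p : ℝ) ^ _) 2, ← zpow_mul, ← zpow_add₀ (zero_lt_one.trans hp1).ne'] at hxk
    have := zpow_right_injective₀ (zero_lt_one.trans hp1) hp1.ne' hxk
    obtain rfl : α = 0 := by omega
    exact ⟨r, s, hr, hs, by rw [he, pow_zero, mul_one]⟩
  obtain ⟨r, s, hr, hs, es⟩ := hunit a k hk
  obtain ⟨r', s', hr', hs', es'⟩ := hunit b l hl
  exact hns (by rw [es, es']; exact (iso3_of_units hp2 hr hr').mul_sq hs hs')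

/-- At such a prime the condition forces vanishing. -/
theorem VanishCond.norm_lt_one {a b c y : ℚ} (h : VanishCond a b c y) (hy : y ≠ 0) (ha : a ≠ 0)
    (hb : b ≠ 0) (hpos : 0 < a ∨ 0 < b) {p : ℕ} [Fact p.Prime]
    (hns : ¬ Iso3 (a : ℚ_[p]) (b : ℚ_[p]))
    (hc : ∀ k : ℤ, ‖(c : ℚ_[p])‖ ≠ (p : ℝ) ^ (2 * k)) : ‖(y : ℚ_[p])‖ < 1 := by
  obtain ⟨y₀, z, r, e, f, r', e', f', rfl, hz, hy₀, he, hf, hef, hy₁, he', hf', hef'⟩ := h
  have hle : ∀ {x}, IsTraceSum a b x → ‖(x : ℚ_[p])‖ ≤ 1 := fun hx =>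
    (isTraceSum_iff ha hb hpos).1 hx p hns
  have hunit : ∀ {x x'}, IsTraceSum a b x → IsTraceSum a b x' → x * x' = 1 →
      ‖(x : ℚ_[p])‖ = 1 := fun {x x'} hx hx' hxx' => by
    have h1 : ‖(x : ℚ_[p])‖ * ‖(x' : ℚ_[p])‖ = 1 := by
      rw [← norm_mul, ← Rat.cast_mul, hxx', Rat.cast_one, norm_one]
    refine le_antisymm (hle hx) ?_
    nlinarith [hle hx', norm_nonneg (x : ℚ_[p]), norm_nonneg (x' : ℚ_[p])]
  have hp1 : (1 : ℝ) < p := Nat.one_lt_cast.2 (Fact.out : p.Prime).one_lt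
  have hr : r ≠ 0 := fun e0 => hy (by rw [hy₀, e0]; ring)
  have hsq : ∀ x : ℚ, x ≠ 0 → ∃ k : ℤ, ‖((x ^ 2 : ℚ) : ℚ_[p])‖ = (p : ℝ) ^ (2 * k) := fun x hx =>
    ⟨-(x : ℚ_[p]).valuation, by
      rw [Rat.cast_pow, norm_pow, Padic.norm_eq_zpow_neg_valuation (Rat.cast_ne_zero.2 hx),
        ← zpow_natCast ((p : ℝ) ^ _) 2, ← zpow_mul, Nat.cast_ofNat, mul_comm]⟩
  obtain ⟨k, hk⟩ := hsq r hr
  have h0 : ‖(y₀ : ℚ_[p])‖ = ‖(c : ℚ_[p])‖ * (p : ℝ) ^ (2 * k) := by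
    rw [hy₀, Rat.cast_mul, Rat.cast_mul, norm_mul, norm_mul, hunit he hf hef, mul_one, hk]
  have hno : ∀ l : ℤ, ‖(y₀ : ℚ_[p])‖ ≠ (p : ℝ) ^ (2 * l) := fun l hl => hc (l - k) (by
    rw [mul_sub, zpow_sub₀ (zero_lt_one.trans hp1).ne', eq_div_iff (zpow_ne_zero _
      (zero_lt_one.trans hp1).ne'), ← h0, hl])
  have hlt : ‖(y₀ : ℚ_[p])‖ < 1 := by
    rcases lt_trichotomy ‖(y₀ : ℚ_[p])‖ 1 with h | h | h
    · exact h
    · exact absurd h (by simpa using hno 0)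
    have h1 : ‖((1 - y₀ : ℚ) : ℚ_[p])‖ = ‖(y₀ : ℚ_[p])‖ := by
      rw [Rat.cast_sub, Rat.cast_one, sub_eq_add_neg,
        Padic.add_eq_max_of_ne (by rw [norm_one, norm_neg]; exact h.ne), norm_one, norm_neg,
        max_eq_right h.le]
    rw [hy₁, Rat.cast_mul, norm_mul, hunit he' hf' hef', mul_one] at h1
    have hr' : r' ≠ 0 := fun e0 => by
      rw [e0, zero_pow two_ne_zero, Rat.cast_zero, norm_zero] at h1
      exact absurd (h1 ▸ h) (not_lt.2 zero_le_one)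
    obtain ⟨l, hl⟩ := hsq r' hr'
    exact absurd (h1.symm.trans hl) (hno l)
  rw [Rat.cast_mul, norm_mul]
  exact (mul_le_of_le_one_right (norm_nonneg _) (hle hz)).trans_lt hlt

/-- The condition holds of no integer. -/
theorem not_nonIntegral_intCast (n : ℤ) : ¬ NonIntegral n := by
  rintro (⟨z, hz, hzn⟩ | ⟨a, b, y, α, β, ha, hα, hb, hβ, hpos, hy, hVa, hVb⟩)
  · have h1 := congrArg (fun x : ℚ => ‖(x : ℚ_[2])‖) hzn
    push_cast at h1
    rw [norm_mul, norm_mul, norm_one, show ‖(2 : ℚ_[2])‖ = 1 / 2 by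
      simpa using Padic.norm_p (p := 2)] at h1
    nlinarith [twoIntegral_iff.1 hz, Padic.norm_int_le_one (p := 2) n,
      norm_nonneg (n : ℚ_[2]), norm_nonneg (z : ℚ_[2])]
  obtain ⟨A, d, hA, hd, hAd⟩ := exists_mul_sq_eq ha hα
  obtain ⟨B, d', hB, hd', hBd⟩ := exists_mul_sq_eq hb hβ
  obtain ⟨p, _, -, hns, c, hc, hodd⟩ := exists_odd_ramified hA hB hd hd' hAd hBd hpos
  have hy0 : y ≠ 0 := fun e => by simp [e] at hy
  have hlt : ‖(y : ℚ_[p])‖ < 1 := by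
    rcases hc with rfl | rfl
    · exact hVa.norm_lt_one hy0 (ne_zero_of_three ha hα) (ne_zero_of_three hb hβ) hpos hns hodd
    · exact hVb.norm_lt_one hy0 (ne_zero_of_three ha hα) (ne_zero_of_three hb hβ) hpos hns hodd
  have h1 := congrArg (fun x : ℚ => ‖(x : ℚ_[p])‖) hy
  push_cast at h1
  rw [norm_mul, norm_one] at h1
  nlinarith [Padic.norm_int_le_one (p := p) n, norm_nonneg (n : ℚ_[p]), norm_nonneg (y : ℚ_[p])]

/-- Every odd prime is, with `2`, the ramification of a suitable algebra. -/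
theorem exists_algebra {p : ℕ} [hp : Fact p.Prime] (hp2 : p ≠ 2) :
    ∃ a b : ℤ, (a = p ∨ a = -(p : ℤ)) ∧ a % 4 = 3 ∧ b % 4 = 3 ∧ ¬ (p : ℤ) ∣ b ∧ (0 < a ∨ 0 < b) ∧
      ∀ (q : ℕ) [Fact q.Prime], q ≠ 2 → q ≠ p → Iso3 (a : ℚ_[q]) (b : ℚ_[q]) := by
  have hp0 : (0 : ℤ) < p := Int.natCast_pos.2 hp.out.pos
  have hndvd : ∀ (q : ℕ) [Fact q.Prime], q ≠ p → ¬ (q : ℤ) ∣ p := fun q hq hqp h =>
    hqp ((Nat.prime_dvd_prime_iff_eq hq.out hp.out).1 (Int.natCast_dvd_natCast.1 h))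
  have hodd := hp.out.eq_two_or_odd.resolve_left hp2
  rcases (show p % 4 = 1 ∨ p % 4 = 3 by omega) with h4 | h4
  swap
  · refine ⟨p, -1, Or.inl rfl, by omega, by norm_num, fun h => ?_, Or.inl hp0,
      fun q _ hq2 hqp => iso3_of_units hq2 (hndvd q hqp) (not_dvd_neg_one Fact.out)⟩
    exact not_dvd_neg_one hp.out h
  obtain ⟨c, hc⟩ := FiniteField.exists_nonsquare (F := ZMod p)
    (by rwa [ZMod.ringChar_zmod_n])
  obtain ⟨u, rfl⟩ := ZMod.intCast_surjective c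
  have hu0 : ¬ (p : ℤ) ∣ u := fun h => hc (by
    rw [(ZMod.intCast_zmod_eq_zero_iff_dvd _ _).2 h]
    exact ⟨0, by simp⟩)
  obtain ⟨l, -, hl, hlr⟩ := exists_prime_congr {2, p} (by simp [Nat.prime_two, hp.out])
    (fun v => if v = 2 then 3 else u) (by
      intro v hv
      rcases Finset.mem_insert.1 hv with rfl | hv
      · norm_num
      · rw [Finset.mem_singleton.1 hv, if_neg hp2]
        exact hu0) 0
  have hl4 : l % 4 = 3 := by
    have := hlr 2 (by simp)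
    norm_num at this
    omega
  have hlu : (l : ZMod p) = (u : ZMod p) := by
    have h1 := (dvd_pow_self (p : ℤ) three_ne_zero).trans (hlr p (by simp))
    rw [if_neg hp2] at h1
    rw [← sub_eq_zero, ← Int.cast_natCast, ← Int.cast_sub]
    exact (ZMod.intCast_zmod_eq_zero_iff_dvd _ _).2 h1
  have hpl : ¬ (p : ℤ) ∣ l := fun h => hu0 ((ZMod.intCast_zmod_eq_zero_iff_dvd _ _).1 (by
    rw [← hlu, ← Int.cast_natCast]
    exact (ZMod.intCast_zmod_eq_zero_iff_dvd _ _).2 h))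
  refine ⟨-(p : ℤ), l, Or.inr rfl, by omega, by omega, hpl,
    Or.inr (Int.natCast_pos.2 hl.pos), fun q hq hq2 hqp => ?_⟩
  by_cases hql : q = l
  · subst hql
    have hp' : ¬ (q : ℤ) ∣ -(p : ℤ) := by
      rw [dvd_neg]
      exact hndvd q hqp
    have hj : jacobiSym (-(p : ℤ)) q = 1 := by
      have h1 : jacobiSym (q : ℤ) p = -1 := by
        rw [← jacobiSym.legendreSym.to_jacobiSym, legendreSym.eq_neg_one_iff]
        simpa [hlu] using hc
      rw [jacobiSym.neg _ (hl.odd_of_ne_two hq2), ZMod.χ₄_nat_three_mod_four hl4,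
        jacobiSym.quadratic_reciprocity_one_mod_four h4 (hl.odd_of_ne_two hq2), h1]
      norm_num
    rw [← jacobiSym.legendreSym.to_jacobiSym, legendreSym.eq_one_iff q
      (fun e => hp' ((ZMod.intCast_zmod_eq_zero_iff_dvd _ _).1 e))] at hj
    obtain ⟨w, hw⟩ := isSquare_of_residue hq2 hp' hj
    exact ⟨1, 0, w, Or.inl one_ne_zero, by rw [hw]; ring⟩
  · exact iso3_of_units hq2 (by rw [dvd_neg]; exact hndvd q hqp) fun h =>
      hql ((Nat.prime_dvd_prime_iff_eq hq.out hl).1 (Int.natCast_dvd_natCast.1 h))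

/-- The condition holds of every rational which is no integer. -/
theorem nonIntegral_of_not_int {t : ℚ} (ht : ¬ ∃ n : ℤ, (n : ℚ) = t) : NonIntegral t := by
  obtain ⟨p, hp, hgt⟩ : ∃ (p : ℕ) (_ : Fact p.Prime), 1 < ‖(t : ℚ_[p])‖ := by
    by_contra! h
    exact ht (eq_intCast_of_norm_le_one fun p hp => h p hp)
  have hp1 : (1 : ℝ) < p := Nat.one_lt_cast.2 hp.out.one_lt
  have ht0 : t ≠ 0 := fun e => ht ⟨0, by simp [e]⟩
  have hge : (p : ℝ) ≤ ‖(t : ℚ_[p])‖ := by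
    rw [Padic.norm_eq_zpow_neg_valuation (Rat.cast_ne_zero.2 ht0)] at hgt ⊢
    have h1 : (1 : ℤ) ≤ -(t : ℚ_[p]).valuation := by
      by_contra! h0
      exact absurd hgt (not_lt.2 (zpow_le_one_of_nonpos₀ hp1.le (by omega)))
    simpa using zpow_le_zpow_right₀ hp1.le h1
  rcases eq_or_ne p 2 with rfl | hp2
  · refine Or.inl ⟨1 / (2 * t), twoIntegral_iff.2 ?_, by field_simp⟩
    push_cast
    rw [norm_div, norm_one, norm_mul, show ‖(2 : ℚ_[2])‖ = 1 / 2 by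
      simpa using Padic.norm_p (p := 2), div_le_one (by positivity)]
    push_cast at hge
    linarith
  right
  obtain ⟨a, b, hap, ha4, hb4, hpb, hpos, hsplit⟩ := exists_algebra (p := p) hp2
  have hpos' : (0 : ℚ) < a ∨ (0 : ℚ) < b := hpos.imp Int.cast_pos.2 Int.cast_pos.2
  have ha0 : (a : ℚ) ≠ 0 := Int.cast_ne_zero.2 (by omega)
  have hb0 : (b : ℚ) ≠ 0 := Int.cast_ne_zero.2 (by omega)
  have hT : ∀ x : ℚ, ‖(x : ℚ_[2])‖ ≤ 1 → ‖(x : ℚ_[p])‖ ≤ 1 → IsTraceSum a b x := fun x h2 h =>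
    (isTraceSum_iff ha0 hb0 hpos').2 fun q hq hns => by
      rcases eq_or_ne q 2 with rfl | hq2
      · exact h2
      rcases eq_or_ne q p with rfl | hqp
      · exact h
      exact absurd (by simpa using hsplit q hq2 hqp) hns
  have hone : IsTraceSum a b 1 := hT 1 (by simp) (by simp)
  set y := 1 / t with hy
  have hyp : ‖(y : ℚ_[p])‖ ≤ (p : ℝ)⁻¹ := by
    rw [hy, Rat.cast_div, Rat.cast_one, norm_div, norm_one, one_div]
    exact inv_anti₀ (zero_lt_one.trans hp1) hge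
  obtain ⟨k₀, hk₀⟩ := pow_unbounded_of_one_lt ‖(y : ℚ_[2])‖ (show (1 : ℝ) < 2 by norm_num)
  obtain ⟨k, hk, hk1⟩ : ∃ k, k₀ ≤ k ∧ 1 ≤ k := ⟨k₀ + 1, by omega, by omega⟩
  have hy2 : ‖(y : ℚ_[2])‖ * (1 / 2) ^ (2 * k) ≤ 1 := by
    rw [one_div, inv_pow, ← div_eq_mul_inv, div_le_one (by positivity)]
    exact hk₀.le.trans (pow_le_pow_right₀ one_le_two (by omega))
  have hn2 : ‖(2 : ℚ_[2])‖ = 1 / 2 := by simpa using Padic.norm_p (p := 2)
  have hn2p : ‖(2 : ℚ_[p])‖ = 1 := by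
    simpa using norm_intCast_eq_one (p := p) (n := 2) fun h =>
      hp2 ((Nat.prime_dvd_prime_iff_eq hp.out Nat.prime_two).1 (Int.natCast_dvd_natCast.1 h))
  have ha2 : ¬ (2 : ℤ) ∣ a := by omega
  have hb2 : ¬ (2 : ℤ) ∣ b := by omega
  have hP : Prime (p : ℤ) := Nat.prime_iff_prime_int.1 hp.out
  have hna : ‖(a : ℚ_[p])‖ = (p : ℝ)⁻¹ := by
    rcases hap with e | e <;> simp [e, Padic.norm_p]
  have h2n : ∀ n : ℤ, ¬ (2 : ℤ) ∣ n → ‖(n : ℚ_[2])‖ = 1 := fun n hn =>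
    norm_intCast_eq_one (p := 2) (by exact_mod_cast hn)
  refine ⟨a, b, y, ((a : ℚ) - 3) / 4, ((b : ℚ) - 3) / 4, by ring, ?_, by ring, ?_, hpos',
    one_div_mul_cancel ht0, ?_, ?_⟩
  · exact twoIntegral_of_emod ha4
  · exact twoIntegral_of_emod hb4
  · have h4 : ¬ (2 : ℤ) ∣ 4 ^ k - a := fun h => ha2 (by
      have h' : (2 : ℤ) ∣ 4 ^ k := (by norm_num : (2 : ℤ) ∣ 4).trans (dvd_pow_self 4 (by omega))
      simpa using dvd_sub h' h)
    have h4p : ¬ (p : ℤ) ∣ 4 ^ k - a := fun h => by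
      have hpa : (p : ℤ) ∣ a := by rcases hap with e | e <;> simp [e]
      have h4' := hP.dvd_of_dvd_pow (by simpa using dvd_add h hpa : (p : ℤ) ∣ (4 : ℤ) ^ k)
      rw [show (4 : ℤ) = 2 * 2 by norm_num] at h4'
      exact hp2 ((Nat.prime_dvd_prime_iff_eq hp.out Nat.prime_two).1
        (Int.natCast_dvd_natCast.1 ((hP.dvd_or_dvd h4').elim id id)))
    have hne : ((4 : ℚ) ^ k - a) ≠ 0 := by
      have : (4 : ℤ) ^ k - a ≠ 0 := fun e => h4 (e ▸ dvd_zero _)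
      exact_mod_cast this
    refine ⟨a * (1 / 2 ^ k) ^ 2, y * 4 ^ k / a, 1 / 2 ^ k, 1, 1, 1 / 2 ^ k, 4 ^ k - a,
      1 / (4 ^ k - a), ?_, hT _ ?_ ?_, (mul_one _).symm, hone, hone, mul_one _, ?_, hT _ ?_ ?_,
      hT _ ?_ ?_, mul_one_div_cancel hne⟩
    · field_simp
      rw [show (4 : ℚ) = 2 ^ 2 by norm_num, ← pow_mul, ← pow_mul, mul_comm 2 k]
    · push_cast
      rw [norm_div, norm_mul, norm_pow, h2n a ha2, div_one, show (4 : ℚ_[2]) = 2 ^ 2 by norm_num,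
        norm_pow, hn2, ← pow_mul]
      exact hy2
    · push_cast
      rw [norm_div, norm_mul, norm_pow, hna, show (4 : ℚ_[p]) = 2 * 2 by norm_num, norm_mul, hn2p,
        one_mul, one_pow, mul_one, div_le_one (inv_pos.2 (zero_lt_one.trans hp1))]
      exact hyp
    · field_simp
      rw [show (4 : ℚ) = 2 ^ 2 by norm_num, ← pow_mul, ← pow_mul, mul_comm 2 k]
    · simpa using Padic.norm_int_le_one (p := 2) (4 ^ k - a)
    · simpa using Padic.norm_int_le_one (p := p) (4 ^ k - a)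
    · have := h2n _ h4
      push_cast at this ⊢
      rw [norm_div, norm_one, this, div_one]
    · have := norm_intCast_eq_one (p := p) h4p
      push_cast at this ⊢
      rw [norm_div, norm_one, this, div_one]
  · have h4 : ¬ (2 : ℤ) ∣ (2 * p) ^ (2 * k) - b := fun h => hb2 (by
      have h' : (2 : ℤ) ∣ (2 * p : ℤ) ^ (2 * k) :=
        (dvd_mul_right _ _).trans (dvd_pow_self _ (by omega))
      simpa using dvd_sub h' h)
    have h4p : ¬ (p : ℤ) ∣ (2 * p) ^ (2 * k) - b := fun h => hpb (by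
      have h' : (p : ℤ) ∣ (2 * p : ℤ) ^ (2 * k) :=
        (dvd_mul_left _ _).trans (dvd_pow_self _ (by omega))
      simpa using dvd_sub h' h)
    have hne : ((2 * p : ℚ) ^ (2 * k) - b) ≠ 0 := by
      have : (2 * p : ℤ) ^ (2 * k) - b ≠ 0 := fun e => h4 (e ▸ dvd_zero _)
      exact_mod_cast this
    have hp0 : (p : ℚ) ≠ 0 := Nat.cast_ne_zero.2 hp.out.ne_zero
    refine ⟨b * (1 / (2 * p) ^ k) ^ 2, y * (2 * p) ^ (2 * k) / b, 1 / (2 * p) ^ k, 1, 1,
      1 / (2 * p) ^ k, (2 * p) ^ (2 * k) - b, 1 / ((2 * p) ^ (2 * k) - b), ?_, hT _ ?_ ?_,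
      (mul_one _).symm, hone, hone, mul_one _, ?_, hT _ ?_ ?_, hT _ ?_ ?_, mul_one_div_cancel hne⟩
    · field_simp
      ring
    · push_cast
      rw [norm_div, norm_mul, norm_pow, norm_mul, hn2, h2n b hb2, div_one, mul_pow, ← mul_assoc]
      exact mul_le_one₀ hy2 (by positivity) (pow_le_one₀ (norm_nonneg _)
        (by simpa using Padic.norm_int_le_one (p := 2) (p : ℤ)))
    · push_cast
      rw [norm_div, norm_mul, norm_pow, norm_mul, hn2p, norm_intCast_eq_one hpb, div_one]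
      refine mul_le_one₀ (hyp.trans (inv_le_one_of_one_le₀ hp1.le)) (by positivity)
        (pow_le_one₀ (by positivity) ?_)
      rw [one_mul, Padic.norm_p]
      exact inv_le_one_of_one_le₀ hp1.le
    · field_simp
      ring
    · simpa using Padic.norm_int_le_one (p := 2) ((2 * p) ^ (2 * k) - b)
    · simpa using Padic.norm_int_le_one (p := p) ((2 * p) ^ (2 * k) - b)
    · have := h2n _ h4
      push_cast at this ⊢
      rw [norm_div, norm_one, this, div_one]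
    · have := norm_intCast_eq_one (p := p) h4p
      push_cast at this ⊢
      rw [norm_div, norm_one, this, div_one]

/-- **The non-integers by the condition.** -/
theorem not_int_iff_nonIntegral (t : ℚ) : (¬ ∃ n : ℤ, (n : ℚ) = t) ↔ NonIntegral t :=
  ⟨nonIntegral_of_not_int, fun h ⟨n, hn⟩ => not_nonIntegral_intCast n (hn ▸ h)⟩

/-- **Koenigsmann**: the non-integers form a Diophantine set. -/
theorem ratDioph_not_int : RatDioph {v : Fin 1 → ℚ | ¬ ∃ n : ℤ, (n : ℚ) = v 0} := by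
  have htwo : RatDioph {v : Fin 1 → ℚ | TwoIntegral (v 0)} :=
    (ratDioph_zeroSet (X (Sum.inr 0) ^ 2 + X (Sum.inr 1) ^ 2 + X (Sum.inr 2) ^ 2 -
      (2 + 7 * X (Sum.inl 0) ^ 2) : MvPolynomial (Fin 1 ⊕ Fin 3) ℤ)).exists.congr fun v => by
        simp [TwoIntegral, sub_eq_zero]
  have hpos : RatDioph {v : Fin 1 → ℚ | 0 < v 0} :=
    (ratDioph_zeroSet (X (Sum.inl 0) * ∑ i, X (Sum.inr i) ^ 2 - 1 :
      MvPolynomial (Fin 1 ⊕ Fin 4) ℤ)).exists.congr fun v => by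
        simp only [Set.mem_ofPred_eq, map_sub, map_mul, map_sum, map_pow, map_one, aeval_X,
          Sum.elim_inl, Sum.elim_inr, sub_eq_zero]
        refine ⟨fun h => ?_, fun ⟨w, hw⟩ => ?_⟩
        · obtain ⟨w, hw⟩ := exists_four_squares_rat (q := 1 / v 0) (by positivity)
          exact ⟨w, by rw [hw, mul_one_div_cancel h.ne']⟩
        · by_contra! hle
          nlinarith [Finset.sum_nonneg fun i (_ : i ∈ Finset.univ) => sq_nonneg (w i)]
  let ts : Fin 4 ⊕ Fin 8 → Fin 3 → Fin 4 ⊕ Fin 8 := fun i => ![Sum.inl 0, Sum.inl 1, i]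
  have hvan : RatDioph {v : Fin 4 → ℚ | VanishCond (v 0) (v 1) (v 2) (v 3)} := by
    let x : Fin 4 → MvPolynomial (Fin 4 ⊕ Fin 8) ℤ := fun i => X (Sum.inl i)
    let w : Fin 8 → MvPolynomial (Fin 4 ⊕ Fin 8) ℤ := fun i => X (Sum.inr i)
    refine ((((((((ratDioph_zeroSet (x 3 - w 0 * w 1)).inter
      (ratDioph_isTraceSum.comap (ts (Sum.inr 1)))).inter
      (ratDioph_zeroSet (w 0 - x 2 * w 2 ^ 2 * w 3))).inter
      ((ratDioph_isTraceSum.comap (ts (Sum.inr 3))).inter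
        (ratDioph_isTraceSum.comap (ts (Sum.inr 4))))).inter
      (ratDioph_zeroSet (w 3 * w 4 - 1))).inter
      (ratDioph_zeroSet (1 - w 0 - w 5 ^ 2 * w 6))).inter
      ((ratDioph_isTraceSum.comap (ts (Sum.inr 6))).inter
        (ratDioph_isTraceSum.comap (ts (Sum.inr 7))))).inter
      (ratDioph_zeroSet (w 6 * w 7 - 1))).exists.congr fun v => ?_
    simp only [x, w, ts, VanishCond, Set.mem_ofPred_eq, Set.mem_inter_iff, map_sub, map_mul,
      map_pow, map_one, aeval_X, Sum.elim_inl, Sum.elim_inr, Function.comp_apply,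
      Matrix.cons_val_zero, Matrix.cons_val_one, Matrix.cons_val, sub_eq_zero, and_assoc]
    constructor
    · rintro ⟨y₀, z, r, e, f, r', e', f', h⟩
      exact ⟨![y₀, z, r, e, f, r', e', f'], h⟩
    · rintro ⟨w, h⟩
      exact ⟨w 0, w 1, w 2, w 3, w 4, w 5, w 6, w 7, h⟩
  let t : MvPolynomial (Fin 1 ⊕ Fin 5) ℤ := X (Sum.inl 0)
  let w : Fin 5 → MvPolynomial (Fin 1 ⊕ Fin 5) ℤ := fun i => X (Sum.inr i)
  have h2 : RatDioph {v : Fin 1 → ℚ | ∃ z, TwoIntegral z ∧ 2 * z * v 0 = 1} :=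
    ((htwo.comap fun _ => (Sum.inr 0 : Fin 1 ⊕ Fin 1)).inter (ratDioph_zeroSet
      (2 * X (Sum.inr 0) * X (Sum.inl 0) - 1 :
        MvPolynomial (Fin 1 ⊕ Fin 1) ℤ))).exists.congr fun v => by
      simp only [Set.mem_ofPred_eq, Set.mem_inter_iff, map_sub, map_mul, map_ofNat, map_one,
        aeval_X, Sum.elim_inl, Sum.elim_inr, Function.comp_apply, sub_eq_zero]
      exact ⟨fun ⟨z, h⟩ => ⟨fun _ => z, h⟩, fun ⟨z, h⟩ => ⟨z 0, h⟩⟩
  refine (h2.union (((((((ratDioph_zeroSet (w 0 - (3 + 4 * w 3))).inter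
    (htwo.comap fun _ => Sum.inr 3)).inter (ratDioph_zeroSet (w 1 - (3 + 4 * w 4)))).inter
    (htwo.comap fun _ => Sum.inr 4)).inter
    ((hpos.comap fun _ => Sum.inr 0).union (hpos.comap fun _ => Sum.inr 1))).inter
    (ratDioph_zeroSet (w 2 * t - 1))).inter
    ((hvan.comap ![Sum.inr 0, Sum.inr 1, Sum.inr 0, Sum.inr 2]).inter
      (hvan.comap ![Sum.inr 0, Sum.inr 1, Sum.inr 1, Sum.inr 2]))).exists).congr fun v => ?_
  rw [Set.mem_ofPred_eq, not_int_iff_nonIntegral]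
  simp only [t, w, NonIntegral, Set.mem_union, Set.mem_ofPred_eq, Set.mem_inter_iff, map_sub,
    map_add, map_mul, map_ofNat, map_one, aeval_X, Sum.elim_inl, Sum.elim_inr, Function.comp_apply,
    Matrix.cons_val_zero, Matrix.cons_val_one, Matrix.cons_val, sub_eq_zero, and_assoc]
  refine or_congr_right ⟨?_, ?_⟩
  · rintro ⟨a, b, y, α, β, h⟩
    exact ⟨![a, b, y, α, β], h⟩
  · rintro ⟨w, h⟩
    exact ⟨w 0, w 1, w 2, w 3, w 4, h⟩

end Fermat.Agent.RatDefinable
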